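/-
Programme MZ (S15, Mazur's key step), chapter TOP (helper9): **(E0) a rational point of prime order
`p` in the identity component at a prime `ℓ ≠ p, 2` of multiplicative reduction forces
`p ≤ 2ℓ - 1`** (elementary; no Tate curve).

`W` an integral Weierstrass model, `Q ∈ E(ℚ̄)` Galois-fixed, `Q ≠ 0`, `p • Q = 0`, `A` a place of `ℚ̄`
over `ℓ`, `ℓ ∣ Δ`, `ℓ ∤ c₄`, and `W.InZeroComponentAt A Q`.  Then:
* `x(Q)` is a root of the division polynomial `ΨSq_p ∈ ℤ[X]`, whose leading coefficient `p²` is a unit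
  at `ℓ`, so `x(Q) ∈ A` (the first alternative of `InZeroComponentAt` is impossible);
* the reduction of `Q` is a nonsingular `𝔽_ℓ`-point of the reduced cubic killed by `p`
  (`DivPoly/A1Final.nsmul_eq_zero_iff`, valid for singular cubics), and it is not `0`;
* the reduced cubic has a node whose abscissa `x₀ = (18 b₆ - b₂ b₄)/c₄` carries no nonsingular point,
  so its group of nonsingular `𝔽_ℓ`-points has at most `2ℓ - 1` elements.
-/
import Mathlib
import Fermat.Prelude.Def_EllipticCurve_ZeroComponentAt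
import Fermat.Agent.DivPoly.A1Final
import Fermat.Agent.S51.GaloisDescent
import Fermat.Agent.S05.Inertia
import Fermat.Agent.ES.KRON.KronInst10

set_option autoImplicit false
set_option linter.unusedSectionVars false
set_option linter.style.haveILetI false

open WeierstrassCurve WeierstrassCurve.Affine Polynomial

namespace Fermat.Agent.MZ.TOP.ZeroComp9

/-! ### the node of a singular cubic with `c₄ ≠ 0` -/

section Node

variable {F : Type*} [Field F]

/-- the `x`-coordinate of the singular point of a nodal Weierstrass cubic. -/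
noncomputable def x0 (W : Affine F) : F := (18 * W.b₆ - W.b₂ * W.b₄) / W.c₄

theorem cubic_x0 (W : Affine F) (hc : W.c₄ ≠ 0) :
    W.c₄ ^ 3 * (4 * x0 W ^ 3 + W.b₂ * x0 W ^ 2 + 2 * W.b₄ * x0 W + W.b₆) = 4 * W.c₆ * W.Δ := by
  unfold x0
  have : W.c₄ ^ 3 * (4 * ((18 * W.b₆ - W.b₂ * W.b₄) / W.c₄) ^ 3 +
      W.b₂ * ((18 * W.b₆ - W.b₂ * W.b₄) / W.c₄) ^ 2 +
      2 * W.b₄ * ((18 * W.b₆ - W.b₂ * W.b₄) / W.c₄) + W.b₆) =
      4 * (18 * W.b₆ - W.b₂ * W.b₄) ^ 3 + W.b₂ * (18 * W.b₆ - W.b₂ * W.b₄) ^ 2 * W.c₄ +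
        2 * W.b₄ * (18 * W.b₆ - W.b₂ * W.b₄) * W.c₄ ^ 2 + W.b₆ * W.c₄ ^ 3 := by
    field_simp
  rw [this]
  simp only [WeierstrassCurve.c₄, WeierstrassCurve.c₆, WeierstrassCurve.Δ, WeierstrassCurve.b₂,
    WeierstrassCurve.b₄, WeierstrassCurve.b₆, WeierstrassCurve.b₈]
  ring

theorem deriv_x0 (W : Affine F) (hc : W.c₄ ≠ 0) :
    W.c₄ ^ 2 * (6 * x0 W ^ 2 + W.b₂ * x0 W + W.b₄) = -72 * W.Δ := by
  unfold x0
  have : W.c₄ ^ 2 * (6 * ((18 * W.b₆ - W.b₂ * W.b₄) / W.c₄) ^ 2 +
      W.b₂ * ((18 * W.b₆ - W.b₂ * W.b₄) / W.c₄) + W.b₄) =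
      6 * (18 * W.b₆ - W.b₂ * W.b₄) ^ 2 + W.b₂ * (18 * W.b₆ - W.b₂ * W.b₄) * W.c₄ +
        W.b₄ * W.c₄ ^ 2 := by
    field_simp
  rw [this]
  simp only [WeierstrassCurve.c₄, WeierstrassCurve.Δ, WeierstrassCurve.b₂,
    WeierstrassCurve.b₄, WeierstrassCurve.b₆, WeierstrassCurve.b₈]
  ring

/-- no nonsingular point lies over `x0` on a nodal cubic (`char ≠ 2`). -/
theorem not_nonsingular_x0 (W : Affine F) (h2 : (2 : F) ≠ 0) (hΔ : W.Δ = 0) (hc : W.c₄ ≠ 0)
    (y : F) : ¬ W.Nonsingular (x0 W) y := by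
  rw [nonsingular_iff', equation_iff]
  rintro ⟨heq, hns⟩
  have h1 := cubic_x0 W hc
  have h2' := deriv_x0 W hc
  rw [hΔ, mul_zero] at h1 h2'
  have hg : 4 * x0 W ^ 3 + W.b₂ * x0 W ^ 2 + 2 * W.b₄ * x0 W + W.b₆ = 0 := by
    rcases mul_eq_zero.mp h1 with h | h
    · exact absurd (pow_eq_zero_iff (by norm_num) |>.mp h) hc
    · exact h
  have hg' : 6 * x0 W ^ 2 + W.b₂ * x0 W + W.b₄ = 0 := by
    rcases mul_eq_zero.mp h2' with h | h
    · exact absurd (pow_eq_zero_iff (by norm_num) |>.mp h) hc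
    · exact h
  have hy : 2 * y + W.a₁ * x0 W + W.a₃ = 0 := by
    have hsq : (2 * y + W.a₁ * x0 W + W.a₃) ^ 2 =
        4 * x0 W ^ 3 + W.b₂ * x0 W ^ 2 + 2 * W.b₄ * x0 W + W.b₆ := by
      simp only [WeierstrassCurve.b₂, WeierstrassCurve.b₄, WeierstrassCurve.b₆]
      linear_combination 4 * heq
    rw [hg] at hsq
    exact pow_eq_zero_iff (by norm_num) |>.mp hsq
  rcases hns with hns | hns
  · apply hns
    have : 2 * (W.a₁ * y - (3 * x0 W ^ 2 + 2 * W.a₂ * x0 W + W.a₄)) = 0 := by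
      simp only [WeierstrassCurve.b₂, WeierstrassCurve.b₄] at hg'
      linear_combination W.a₁ * hy - hg'
    exact (mul_eq_zero.mp this).resolve_left h2
  · exact hns hy

end Node

/-! ### counting the nonsingular points over a finite field -/

section Count

variable {F : Type*} [Field F] [Fintype F] [DecidableEq F]

/-- the affine points over a given abscissa are roots of a monic quadratic. -/
theorem card_fibre_le (W : Affine F) (a : F) (S : Finset (F × F))
    (hS : ∀ q ∈ S, W.Equation q.1 q.2) :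
    (S.filter fun q => q.1 = a).card ≤ 2 := by
  classical
  set P : F[X] := X ^ 2 + C (W.a₁ * a + W.a₃) * X - C (a ^ 3 + W.a₂ * a ^ 2 + W.a₄ * a + W.a₆)
    with hP
  have hdeg : P.natDegree ≤ 2 := by
    rw [hP]; compute_degree
  have hP0 : P ≠ 0 := by
    intro h
    have h2 : P.coeff 2 = 1 := by
      rw [hP, coeff_sub, coeff_add, coeff_X_pow, coeff_C_mul, coeff_X, coeff_C]
      norm_num
    rw [h] at h2
    simp at h2
  have hinj : Set.InjOn (fun q : F × F => q.2) ↑(S.filter fun q => q.1 = a) := by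
    intro q hq q' hq' h
    rw [Finset.coe_filter] at hq hq'
    exact Prod.ext (hq.2.trans hq'.2.symm) h
  have hmaps : ∀ q ∈ S.filter (fun q => q.1 = a), q.2 ∈ P.roots.toFinset := by
    intro q hq
    rw [Finset.mem_filter] at hq
    rw [Multiset.mem_toFinset, mem_roots hP0, IsRoot.def, hP]
    have := (W.equation_iff q.1 q.2).mp (hS q hq.1)
    rw [hq.2] at this
    simp only [eval_sub, eval_add, eval_pow, eval_X, eval_mul, eval_C]
    linear_combination this
  calc (S.filter fun q => q.1 = a).card ≤ P.roots.toFinset.card :=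
        Finset.card_le_card_of_injOn _ hmaps hinj
    _ ≤ Multiset.card P.roots := Multiset.toFinset_card_le _
    _ ≤ P.natDegree := card_roots' P
    _ ≤ 2 := hdeg

/-- the embedding of the points into `Option (F × F)`. -/
def toOpt (W : Affine F) : W.Point → Option (F × F)
  | .zero => none
  | .some x y _ => some (x, y)

theorem toOpt_injective (W : Affine F) : Function.Injective (toOpt W) := by
  intro P Q h
  cases P with
  | zero =>
    cases Q with
    | zero => rfl
    | some x y h' => simp [toOpt] at h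
  | some x y hxy =>
    cases Q with
    | zero => simp [toOpt] at h
    | some x' y' h' =>
      simp only [toOpt, Option.some.injEq, Prod.mk.injEq] at h
      obtain ⟨rfl, rfl⟩ := h
      rfl

theorem finite_point (W : Affine F) : Finite W.Point := Finite.of_injective _ (toOpt_injective W)

/-- **point count of a cubic with a missing abscissa**: if no nonsingular point lies over `x₀`, the
group of nonsingular points has at most `2 #F - 1` elements. -/
theorem card_point_le (W : Affine F) (x₀ : F) (h0 : ∀ y, ¬ W.Nonsingular x₀ y) :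
    Nat.card W.Point ≤ 2 * Fintype.card F - 1 := by
  classical
  set S : Finset (F × F) := Finset.univ.filter fun q => W.Equation q.1 q.2 ∧ q.1 ≠ x₀ with hS
  have hScard : S.card ≤ 2 * (Fintype.card F - 1) := by
    have h1 := Finset.card_le_mul_card_image (f := fun q : F × F => q.1) S 2 (fun a _ => by
      have := card_fibre_le W a S (fun q hq => ((Finset.mem_filter.mp hq).2).1)
      simpa using this)
    have h2 : (S.image fun q : F × F => q.1) ⊆ Finset.univ.erase x₀ := by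
      intro a ha
      obtain ⟨q, hq, rfl⟩ := Finset.mem_image.mp ha
      exact Finset.mem_erase.mpr ⟨((Finset.mem_filter.mp hq).2).2, Finset.mem_univ _⟩
    have h3 := Finset.card_le_card h2
    rw [Finset.card_erase_of_mem (Finset.mem_univ _), Finset.card_univ] at h3
    exact h1.trans (Nat.mul_le_mul_left 2 h3)
  have himg : ∀ P : W.Point, toOpt W P ∈ insert none (S.image some) := by
    intro P
    cases P with
    | zero => exact Finset.mem_insert_self _ _
    | some x y hxy =>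
      refine Finset.mem_insert_of_mem (Finset.mem_image.mpr ⟨(x, y), ?_, rfl⟩)
      refine Finset.mem_filter.mpr ⟨Finset.mem_univ _, hxy.1, ?_⟩
      rintro rfl
      exact h0 y hxy
  have hcard : Nat.card W.Point ≤ (insert none (S.image some)).card := by
    rw [← Nat.card_eq_finsetCard]
    exact Nat.card_le_card_of_injective
      (fun P => (⟨toOpt W P, himg P⟩ : ↥(insert none (S.image some))))
      (fun P Q h => toOpt_injective W (congrArg Subtype.val h))
  have h4 : (insert none (S.image some)).card ≤ S.card + 1 :=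
    (Finset.card_insert_le _ _).trans (Nat.add_le_add_right Finset.card_image_le 1)
  have hF : 1 ≤ Fintype.card F := Fintype.card_pos
  omega

/-- a point of prime order `p` on a nodal cubic over a finite field `F` of odd characteristic:
`p ≤ 2 #F - 1`. -/
theorem prime_le_of_nsmul_eq_zero (W : Affine F) (h2 : (2 : F) ≠ 0) (hΔ : W.Δ = 0)
    (hc : W.c₄ ≠ 0) {p : ℕ} (hp : p.Prime) (P : W.Point) (hP0 : P ≠ 0) (hpP : p • P = 0) :
    p ≤ 2 * Fintype.card F - 1 := by
  haveI := finite_point W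
  have hord : addOrderOf P = p := by
    haveI : Fact p.Prime := ⟨hp⟩
    exact addOrderOf_eq_prime hpP hP0
  have h1 : p ∣ Nat.card W.Point := hord ▸ addOrderOf_dvd_natCard P
  have h2' : 0 < Nat.card W.Point := Nat.card_pos
  exact (Nat.le_of_dvd h2' h1).trans
    (card_point_le W (x0 W) (not_nonsingular_x0 W h2 hΔ hc))

end Count

/-! ### reduction of a rational torsion point -/

section Main

open Fermat.Agent.S05.Inertia

/-- `ℚbar`. -/
local notation "Kb" => AlgebraicClosure ℚ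

/-- the curve over `ℚ̄` is the integral model mapped along `ℤ → ℚ̄`. -/
theorem baseChange_eq (W : WeierstrassCurve ℤ) :
    ((W.map (Int.castRingHom ℚ))⁄Kb) = W.map (Int.castRingHom Kb) := by
  show (W.map (Int.castRingHom ℚ)).map (algebraMap ℚ Kb) = _
  rw [WeierstrassCurve.map_map]
  congr 1

variable {ℓ : ℕ} (hℓ : ℓ.Prime) {A : ValuationSubring Kb} (hA : A.LiesOverPrime ℓ)

include hℓ hA in
/-- a rational number in `A` has denominator prime to `ℓ`. -/
theorem not_dvd_den_of_mem (q : ℚ) (hq : (q : Kb) ∈ A) : ¬ ℓ ∣ q.den := by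
  intro hd
  have hn : ¬ (ℓ : ℤ) ∣ q.num := by
    intro hn
    have h1 : ℓ ∣ q.num.natAbs := Int.natCast_dvd.mp hn
    have h2 : ℓ ∣ Nat.gcd q.num.natAbs q.den := Nat.dvd_gcd h1 hd
    rw [q.reduced] at h2
    exact hℓ.one_lt.ne' (Nat.dvd_one.mp h2)
  have hv1 : A.valuation ((q.num : ℤ) : Kb) = 1 := valuation_intCast_eq_one hℓ hA hn
  have hv2 : A.valuation ((q.den : ℕ) : Kb) < 1 := (valuation_natCast_lt_one_iff hℓ hA _).mpr hd
  have hv3 : A.valuation (q : Kb) ≤ 1 := (A.valuation_le_one_iff _).mpr hq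
  have hmul : (q : Kb) * ((q.den : ℕ) : Kb) = ((q.num : ℤ) : Kb) := by
    have := Rat.mul_den_eq_num q
    exact_mod_cast congrArg (fun r : ℚ => (r : Kb)) this
  have : A.valuation (q : Kb) * A.valuation ((q.den : ℕ) : Kb) = 1 := by
    rw [← map_mul, hmul, hv1]
  have hlt : A.valuation (q : Kb) * A.valuation ((q.den : ℕ) : Kb) < 1 := by
    calc A.valuation (q : Kb) * A.valuation ((q.den : ℕ) : Kb)
        ≤ 1 * A.valuation ((q.den : ℕ) : Kb) := mul_le_mul' hv3 le_rfl
      _ = A.valuation ((q.den : ℕ) : Kb) := one_mul _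
      _ < 1 := hv2
  rw [this] at hlt
  exact lt_irrefl _ hlt

include hℓ hA in
/-- the residue class of a rational number of `A` comes from `𝔽_ℓ`. -/
theorem exists_zmod_of_rat [CharP (IsLocalRing.ResidueField A) ℓ] (q : ℚ) (hq : (q : Kb) ∈ A) :
    ∃ t : ZMod ℓ, ZMod.castHom (dvd_refl ℓ) (IsLocalRing.ResidueField A) t =
      IsLocalRing.residue A ⟨(q : Kb), hq⟩ := by
  haveI : Fact ℓ.Prime := ⟨hℓ⟩
  have hd := not_dvd_den_of_mem hℓ hA q hq
  have hdk : ((q.den : ℕ) : IsLocalRing.ResidueField A) ≠ 0 := by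
    rw [Ne, CharP.cast_eq_zero_iff (IsLocalRing.ResidueField A) ℓ]
    exact hd
  refine ⟨(q.num : ZMod ℓ) * ((q.den : ℕ) : ZMod ℓ)⁻¹, ?_⟩
  rw [map_mul, map_inv₀, map_intCast, map_natCast, eq_comm, eq_mul_inv_iff_mul_eq₀ hdk]
  have hmul : (⟨(q : Kb), hq⟩ : A) * ((q.den : ℕ) : A) = ((q.num : ℤ) : A) := by
    apply Subtype.ext
    have := Rat.mul_den_eq_num q
    push_cast
    exact_mod_cast congrArg (fun r : ℚ => (r : Kb)) this
  have := congrArg (IsLocalRing.residue A) hmul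
  rwa [map_mul, map_natCast, map_intCast] at this

include hℓ hA in
/-- **(E0)**: a Galois-fixed point `Q ≠ 0` killed by a prime `p`, lying in the identity component at
a place `A` over a prime `ℓ ≠ p, 2` with `ℓ ∣ Δ`, `ℓ ∤ c₄`, forces `p ≤ 2ℓ - 1`. -/
theorem prime_le_of_inZeroComponentAt {p : ℕ} (hp : p.Prime) (hℓp : ℓ ≠ p) (hℓ2 : ℓ ≠ 2)
    (W : WeierstrassCurve ℤ) (hℓΔ : (ℓ : ℤ) ∣ W.Δ) (hℓc₄ : ¬ (ℓ : ℤ) ∣ W.c₄)
    (Q : ((W.map (Int.castRingHom ℚ))⁄Kb).Point)
    (hQfix : ∀ σ : Kb ≃ₐ[ℚ] Kb, σ • Q = Q) (hQ0 : Q ≠ 0) (hpQ : p • Q = 0)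
    (hz : W.InZeroComponentAt A Q) : p ≤ 2 * ℓ - 1 := by
  classical
  haveI : Fact ℓ.Prime := ⟨hℓ⟩
  haveI : NeZero ℓ := ⟨hℓ.ne_zero⟩
  rcases hz with h0 | ⟨x, y, h, hQ, hxy⟩
  · exact absurd h0 hQ0
  subst hQ
  -- rational coordinates
  have hfix : ∀ σ : Kb ≃ₐ[ℚ] Kb, σ x = x ∧ σ y = y := by
    intro σ
    have h1 := hQfix σ
    obtain ⟨h', he⟩ := Fermat.Agent.S51.Galois.smul_some (W.map (Int.castRingHom ℚ)) σ h
    exact Point.some.inj (he.symm.trans h1)
  obtain ⟨qx, hqx⟩ := Fermat.Agent.S51.Galois.exists_rat_of_fixed x fun σ => (hfix σ).1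
  obtain ⟨qy, hqy⟩ := Fermat.Agent.S51.Galois.exists_rat_of_fixed y fun σ => (hfix σ).2
  rw [eq_ratCast] at hqx hqy
  -- the division polynomial
  set f0 : ℤ[X] := W.ΨSq (p : ℤ) with hf0
  have hΨ : f0.eval₂ (Int.castRingHom Kb) x = 0 := by
    have h1 := (Fermat.Agent.DivPoly.A1Final.nsmul_eq_zero_iff h p hp.one_le).mp hpQ
    have hcurve : ((W.map (Int.castRingHom ℚ))⁄Kb).ΨSq (p : ℤ) = f0.map (Int.castRingHom Kb) := by
      rw [baseChange_eq, WeierstrassCurve.map_ΨSq]
    rw [← eval_map, ← hcurve]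
    exact h1
  have hℓp' : ¬ ℓ ∣ p := fun hd => hℓp ((Nat.prime_dvd_prime_iff_eq hℓ hp).mp hd)
  -- `x ∈ A`
  have hxA : x ∈ A := by
    have hp0 : (((p : ℤ) : ℤ) : ℤ) ≠ 0 := by simpa using hp.ne_zero
    have haeval : aeval x f0 = 0 := by
      rw [aeval_def]
      exact hΨ
    have hint := isIntegral_leadingCoeff_smul f0 x haeval
    rw [hf0, WeierstrassCurve.leadingCoeff_ΨSq W (n := (p : ℤ)) hp0] at hint
    have hint' : IsIntegral A (((p : ℤ) ^ 2 : ℤ) • x) := hint.tower_top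
    obtain ⟨z, hz⟩ := IsIntegrallyClosed.isIntegral_iff.mp hint'
    have hv : A.valuation (((p : ℤ) ^ 2 : ℤ) • x) ≤ 1 := by
      rw [← hz]
      exact (A.valuation_le_one_iff _).mpr z.2
    rw [zsmul_eq_mul, map_mul] at hv
    have hvp : A.valuation (((p : ℤ) ^ 2 : ℤ) : Kb) = 1 := by
      push_cast
      rw [map_pow, valuation_natCast_eq_one hℓ hA hℓp', one_pow]
    rw [hvp, one_mul] at hv
    exact (A.valuation_le_one_iff x).mp hv
  rcases hxy with hxn | ⟨hx, hy, hns⟩
  · exact absurd hxA hxn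
  -- the residue field
  haveI : CharP (IsLocalRing.ResidueField A) ℓ :=
    Fermat.Agent.ES.KRON.KronInst10.charP_residueField A hℓ hA
  set ι : ZMod ℓ →+* IsLocalRing.ResidueField A :=
    ZMod.castHom (dvd_refl ℓ) (IsLocalRing.ResidueField A) with hι
  obtain ⟨xt, hxt⟩ : ∃ t : ZMod ℓ, ι t = IsLocalRing.residue A ⟨x, hx⟩ := by
    subst hqx
    exact exists_zmod_of_rat hℓ hA qx hx
  obtain ⟨yt, hyt⟩ : ∃ t : ZMod ℓ, ι t = IsLocalRing.residue A ⟨y, hy⟩ := by
    subst hqy
    exact exists_zmod_of_rat hℓ hA qy hy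
  -- the reduced curve over `𝔽_ℓ`
  set WF : WeierstrassCurve (ZMod ℓ) := W.map (Int.castRingHom (ZMod ℓ)) with hWF
  have hmap : WF.map ι = W.map (Int.castRingHom (IsLocalRing.ResidueField A)) := by
    rw [hWF, WeierstrassCurve.map_map]
    congr 1
    exact RingHom.ext_int _ _
  have hnsF : WF.toAffine.Nonsingular xt yt := by
    have h1 := WeierstrassCurve.Affine.map_nonsingular (W := WF) (f := ι) ι.injective xt yt
    refine h1.mp ?_
    rw [hxt, hyt]
    show (WF.map ι).toAffine.Nonsingular _ _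
    rw [hmap]
    exact hns
  -- the division polynomial vanishes at `xt`
  have hΨA : f0.eval₂ (Int.castRingHom A) ⟨x, hx⟩ = 0 := by
    apply Subtype.val_injective
    have h1 := Polynomial.hom_eval₂ f0 (Int.castRingHom A) A.subtype ⟨x, hx⟩
    rw [RingHom.ext_int (A.subtype.comp (Int.castRingHom A)) (Int.castRingHom Kb)] at h1
    exact h1.trans hΨ
  have hΨk : f0.eval₂ (Int.castRingHom (IsLocalRing.ResidueField A))
      (IsLocalRing.residue A ⟨x, hx⟩) = 0 := by
    have h1 := Polynomial.hom_eval₂ f0 (Int.castRingHom A) (IsLocalRing.residue A) ⟨x, hx⟩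
    rw [RingHom.ext_int ((IsLocalRing.residue A).comp (Int.castRingHom A))
      (Int.castRingHom (IsLocalRing.ResidueField A)), hΨA, map_zero] at h1
    exact h1.symm
  have hΨF : (WF.ΨSq (p : ℤ)).eval xt = 0 := by
    apply ι.injective
    rw [map_zero, hWF, WeierstrassCurve.map_ΨSq, eval_map, Polynomial.hom_eval₂,
      RingHom.ext_int (ι.comp (Int.castRingHom (ZMod ℓ)))
        (Int.castRingHom (IsLocalRing.ResidueField A)), hxt]
    exact hΨk
  have hpP : p • (Point.some xt yt hnsF : WF.toAffine.Point) = 0 :=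
    (Fermat.Agent.DivPoly.A1Final.nsmul_eq_zero_iff hnsF p hp.one_le).mpr hΨF
  -- the invariants of the reduced curve
  have h2F : (2 : ZMod ℓ) ≠ 0 := by
    intro h
    have h1 : ((2 : ℕ) : ZMod ℓ) = 0 := by exact_mod_cast h
    rw [ZMod.natCast_eq_zero_iff] at h1
    exact hℓ2 ((Nat.prime_dvd_prime_iff_eq hℓ Nat.prime_two).mp h1)
  have hΔF : WF.Δ = 0 := by
    rw [hWF, WeierstrassCurve.map_Δ]
    exact (ZMod.intCast_zmod_eq_zero_iff_dvd W.Δ ℓ).mpr hℓΔ
  have hcF : WF.c₄ ≠ 0 := by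
    rw [hWF, WeierstrassCurve.map_c₄]
    exact fun h => hℓc₄ ((ZMod.intCast_zmod_eq_zero_iff_dvd W.c₄ ℓ).mp h)
  have := prime_le_of_nsmul_eq_zero WF.toAffine h2F hΔF hcF hp (Point.some xt yt hnsF)
    (by simp) hpP
  rwa [ZMod.card] at this

end Main

end Fermat.Agent.MZ.TOP.ZeroComp9
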