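/-
Programme MZ (S15, Mazur's key step), chapter TOP (helper9): **the kernels of reduction `Kred`**.

`J₀(p)` has no Hauptmodul level of its own, so the reduction modulo a prime `r ≠ p` is taken at the
auxiliary level `M_r = auxLevel r p` (`= lcm(p, 9)` for `r = 2`, `lcm(p, 4)` otherwise), where the
two-chart models of ES/RED exist:

* `RedData r p A` : a place reduction map at level `M_r` along `A ∣ r` in the Prelude's sense
  (`IsPlaceReductionAlong` + `PrincipalGeneratedByIntegral`);
* `Kred D : AddSubgroup (JZero p)` : the kernel of `red_{M_r} ∘ π^*`;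
* `exists_redData` : such data exist for every `A` over a prime `r ∤ p`;
* `Kred_inj` (K2) : `Kred D` has no prime-to-`r` torsion (S18's core lemma at the auxiliary level).
-/
import Mathlib
import Fermat.Agent.ES.TOP.LevelsHyp12

set_option autoImplicit false
set_option synthInstance.maxHeartbeats 400000
set_option linter.unusedSectionVars false
set_option linter.style.haveILetI false

noncomputable section

open AlgebraicCurve ModularCurve

namespace Fermat.Agent.MZ.TOP.Kred9

open Fermat.Agent.RED.Interface4 Fermat.Agent.ES.HECKE.LevelPullback12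
  Fermat.Agent.RED.LVL Fermat.Agent.ES.RED.Contract8

/-- `ℚbar`. -/
local notation "Qb" => AlgebraicClosure ℚ

/-- the auxiliary level is nonzero. -/
instance neZeroAux (r p : ℕ) [NeZero p] : NeZero (auxLevel r p) :=
  LevelDegree17.neZero_auxLevel r p

/-- **Reduction data at the auxiliary level** `auxLevel r p` along `A`. -/
structure RedData (r p : ℕ) [NeZero p] (A : ValuationSubring Qb) where
  /-- the reduction of places -/
  rmap : Place Qb (modularFunctionFieldBar (auxLevel r p)) →
    Place (IsLocalRing.ResidueField A)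
      (modularFunctionFieldFullC (IsLocalRing.ResidueField A) (auxLevel r p))
  hr : IsPlaceReductionAlong A (IsLocalRing.residue A) (auxLevel r p) rmap
  hgen : PrincipalGeneratedByIntegral A (IsLocalRing.residue A) (auxLevel r p)

variable {r p : ℕ} [NeZero p] {A : ValuationSubring Qb}

/-- the reduction map `J₀(p) → Pic⁰` of the special fibre at the auxiliary level. -/
def RedData.red (D : RedData r p A) :
    JZero p →+ JZeroC (IsLocalRing.ResidueField A) (auxLevel r p) :=
  (reductionPic0Along D.rmap D.hr D.hgen).comp (levelPullback (dvd_auxLevel r p))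

/-- **the kernel of reduction** along `A`, inside `J₀(p)`. -/
def Kred (D : RedData r p A) : AddSubgroup (JZero p) := D.red.ker

theorem mem_Kred {D : RedData r p A} {z : JZero p} :
    z ∈ Kred D ↔
      reductionPic0Along D.rmap D.hr D.hgen (levelPullback (dvd_auxLevel r p) z) = 0 :=
  Iff.rfl

/-- **(K2)**: `Kred D` has no prime-to-`r` torsion. -/
theorem Kred_inj (hr : r.Prime) (hrp : ¬ r ∣ p) (hA : A.LiesOverPrime r) (D : RedData r p A)
    {z : JZero p} (hz : z ∈ Kred D) {m : ℕ} (hm : ¬ r ∣ m) (hmz : m • z = 0) : z = 0 := by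
  haveI : Fact r.Prime := ⟨hr⟩
  exact Fermat.Agent.ES.RED.PhiThree12.phi_three A
    (Fermat.Agent.RED.S18Exports4.clBar_aux p r hrp A hA) D.rmap D.hr D.hgen m hm z hmz hz

/-- **reduction data exist** for every place `A` over a prime `r ∤ p`. -/
theorem exists_redData (hr : r.Prime) (hrp : ¬ r ∣ p) (A : ValuationSubring Qb)
    (hA : A.LiesOverPrime r) : Nonempty (RedData r p A) := by
  haveI : Fact r.Prime := ⟨hr⟩
  have key : auxLevel r p = auxLevel r p → ∀ [NeZero (auxLevel r p)],
      ∃ rmap : Place Qb (modularFunctionFieldBar (auxLevel r p)) →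
        Place (IsLocalRing.ResidueField A)
          (modularFunctionFieldFullC (IsLocalRing.ResidueField A) (auxLevel r p)),
        IsPlaceReductionAlong A (IsLocalRing.residue A) (auxLevel r p) rmap ∧
          PrincipalGeneratedByIntegral A (IsLocalRing.residue A) (auxLevel r p) := by
    refine Fermat.Agent.ES.TOP.AuxBase8.of_base hr (NeZero.ne p) hrp
      (fun M => M = auxLevel r p → ∀ [NeZero M],
        ∃ rmap : Place Qb (modularFunctionFieldBar M) →
          Place (IsLocalRing.ResidueField A)
            (modularFunctionFieldFullC (IsLocalRing.ResidueField A) M),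
          IsPlaceReductionAlong A (IsLocalRing.residue A) M rmap ∧
            PrincipalGeneratedByIntegral A (IsLocalRing.residue A) M) ?_
    intro n e _ hb M hM0 hnM _ hrM _ _
    obtain ⟨hmem, x, hx, T, c0, c1, hs0, p0, p1⟩ :=
      Fermat.Agent.ES.TOP.ModelOfInst12.model_of_hasLevels n e M r hrM
        (Fermat.Agent.RED.BASE.Hauptmodul12.tMem_of_dvd hb hnM)
        (Fermat.Agent.RED.BASE.Hauptmodul12.tGenBase' hb) A hA
        (Fermat.Agent.ES.TOP.LevelsHyp12.levelsHyp n e hb M hnM r hrM A hA).1
        (Fermat.Agent.ES.TOP.LevelsHyp12.levelsHyp n e hb M hnM r hrM A hA).2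
    obtain ⟨h0, h1⟩ := Fermat.Agent.ES.RED.RedInst15.chartInputs_both n e M r hrM hmem
      (Fermat.Agent.RED.BASE.Hauptmodul12.tGenBase' hb) A hA T c0 c1 hs0 p0 p1
    exact ⟨T.r, Fermat.Agent.ES.RED.RedMain15.isPlaceReductionModL_twoCharts T h0 h1,
      Fermat.Agent.ES.RED.GaussUnit25.principalGeneratedByIntegral A r hA M hrM⟩
  obtain ⟨rmap, h1, h2⟩ := key rfl
  exact ⟨⟨rmap, h1, h2⟩⟩

end Fermat.Agent.MZ.TOP.Kred9
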