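/-
Programme MZ (S15, Mazur's key step), chapter TOP (helper9): **the abstract end-game**.

`J` an abelian group with an action of a commutative ring `R` (the Hecke algebra), `P` a prime
ideal of `R` containing the annihilator of a class `c` (the cuspidal class `(0) - (∞)`), `M ⊆ J`
the rational points.  Input `(F)`: every `z ∈ M` has an `R`-multiple `t • z`, `t ∉ P`, which is
torsion ("the `P`-part of `M` has rank `0`").  Two "kernels of reduction" `Kr`, `Kl` (at primes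
`r`, `l` which are units modulo `P`), `R`-stable and without prime-to-`r` (resp. prime-to-`l`)
torsion.  If `y ∈ M` lies in `Kr` and `y + c` lies in `Kl`, we get a contradiction.

In the application `y = cl((x) - (0))` for the rational point `x = (E, ⟨Q⟩)` of `X₀(p)`:
`x` meets the cusp `0` at `r ∈ {2, 3}` and would meet the cusp `∞` at `l`.
-/
import Mathlib

set_option autoImplicit false

namespace Fermat.Agent.MZ.TOP.Endgame9

variable {J R : Type*} [AddCommGroup J] [CommRing R] [Module R J]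

/-- In a subgroup without prime-to-`r` torsion, a torsion element is killed by a power of `r`. -/
theorem exists_pow_smul_eq_zero {r : ℕ} (hr : r ≠ 1) (K : AddSubgroup J)
    (inj : ∀ z ∈ K, ∀ m : ℕ, ¬ r ∣ m → m • z = 0 → z = 0)
    {z : J} (hz : z ∈ K) {m : ℕ} (hm : 0 < m) (hmz : m • z = 0) :
    ∃ a : ℕ, r ^ a • z = 0 := by
  obtain ⟨a, m', hm', rfl⟩ := Nat.exists_eq_pow_mul_and_not_dvd hm.ne' r hr
  refine ⟨a, inj _ (K.nsmul_mem hz _) m' hm' ?_⟩
  rw [← mul_nsmul, hmz]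

/-- **The abstract end-game of Programme MZ.** -/
theorem endgame (P : Ideal R) (hP : P.IsPrime) (M : AddSubgroup J) (c y : J)
    (hc : c ∈ M) (hy : y ∈ M)
    (hann : ∀ t : R, t • c = 0 → t ∈ P)
    (hF : ∀ z ∈ M, ∃ t : R, t ∉ P ∧ ∃ m : ℕ, 0 < m ∧ m • (t • z) = 0)
    (r l : ℕ) (hr : r ≠ 1) (hl : l ≠ 1) (hrP : (r : R) ∉ P) (hlP : (l : R) ∉ P)
    (Kr Kl : AddSubgroup J)
    (stabr : ∀ (t : R), ∀ z ∈ Kr, t • z ∈ Kr) (stabl : ∀ (t : R), ∀ z ∈ Kl, t • z ∈ Kl)
    (injr : ∀ z ∈ Kr, ∀ m : ℕ, ¬ r ∣ m → m • z = 0 → z = 0)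
    (injl : ∀ z ∈ Kl, ∀ m : ℕ, ¬ l ∣ m → m • z = 0 → z = 0)
    (hyr : y ∈ Kr) (hyl : y + c ∈ Kl) : False := by
  -- step 1: `t' • y = 0` with `t' ∉ P`
  obtain ⟨t, htP, m, hm, hmt⟩ := hF y hy
  obtain ⟨a, ha⟩ := exists_pow_smul_eq_zero hr Kr injr (stabr t y hyr) hm hmt
  set t' : R := (r : R) ^ a * t with ht'
  have ht'y : t' • y = 0 := by
    rw [ht', mul_smul, ← Nat.cast_pow, Nat.cast_smul_eq_nsmul, ha]
  have ht'P : t' ∉ P := by
    intro h
    rcases hP.mem_or_mem h with h1 | h1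
    · exact hrP (hP.mem_of_pow_mem a h1)
    · exact htP h1
  -- step 2: `t' • c ∈ Kl`
  have h2 : t' • c ∈ Kl := by
    have := stabl t' _ hyl
    rwa [smul_add, ht'y, zero_add] at this
  -- step 3: `(F)` for `c`
  obtain ⟨t'', ht''P, m'', hm'', hmt''⟩ := hF c hc
  have h3 : t'' • (t' • c) ∈ Kl := stabl t'' _ h2
  have h4 : m'' • (t'' • (t' • c)) = 0 := by
    rw [smul_comm t'' t' c, smul_comm m'' t' (t'' • c), hmt'', smul_zero]
  obtain ⟨b, hb⟩ := exists_pow_smul_eq_zero hl Kl injl h3 hm'' h4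
  have h5 : ((l : R) ^ b * (t'' * t')) • c = 0 := by
    rw [mul_smul, mul_smul, ← Nat.cast_pow, Nat.cast_smul_eq_nsmul, hb]
  rcases hP.mem_or_mem (hann _ h5) with h6 | h6
  · exact hlP (hP.mem_of_pow_mem b h6)
  · rcases hP.mem_or_mem h6 with h7 | h7
    · exact ht''P h7
    · exact ht'P h7

end Fermat.Agent.MZ.TOP.Endgame9
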