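/-
Programme MZ (S15, Mazur's key step), chapter TOP (helper9): **the assembly of S15** from the four
remaining inputs, stated as propositions:

* `Types2.ModuliBridge` (MOD-E): the rational point `(E, ⟨Q⟩)` of `X₀(p)` as a `G_ℚ`-fixed place of `FF p`
  whose type at a multiplicative prime is dictated by the zero-component condition;
* `RedCommProp` (K1): the kernels of reduction `Kred D` are stable under the `T_q`, `q ∤ 6 p r`;
* `InertDivProp` (P1, LOCP-GEO): divisibility of the `I_p`-fixed points of `J₀(p)` up to a fixed multiple;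
* `SelBoundProp` (SEL + CONST + ORDL + DUAL + EIS): the Selmer groups of the `G_P[l^r]` are bounded.

Everything else is in the tree: the Eisenstein maximal ideal (`CuspEisD5`), (E0) (`ZeroComp9`), (K2)
(`Kred9`), (K3) (`Red2`), (F) from bounded Selmer groups (`RankZero9`), the abstract end-game (`Endgame9`).
-/
import Mathlib
import Fermat.Agent.MZ.TOP.Endgame9
import Fermat.Agent.MZ.TOP.Kred9
import Fermat.Agent.MZ.TOP.ZeroComp9
import Fermat.Agent.MZ.TOP.RankZero9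
import Fermat.Agent.MZ.HECKE.CuspEisD5
import Fermat.Agent.MZ.MOD.Red2

set_option autoImplicit false
set_option linter.unusedSectionVars false
set_option linter.unusedVariables false
set_option linter.style.longLine false
set_option linter.style.haveILetI false
set_option synthInstance.maxHeartbeats 400000
set_option maxHeartbeats 1000000

open AlgebraicCurve ModularCurve
open WeierstrassCurve WeierstrassCurve.Affine
open Fermat.Agent.X0
open Fermat.Agent.PT.GLUE.Objects21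
open Fermat.Agent.TW.DEF.Basic1
open Fermat.Agent.MZ.HECKE.RingD5
open Fermat.Agent.MZ.CUSP.CuspPlaces1
open Fermat.Agent.MZ.MOD.Types2 Fermat.Agent.MZ.MOD.Red2
open Fermat.Agent.MZ.TOP.Kred9 Fermat.Agent.MZ.TOP.RankZero9
open Fermat.Agent.MZ.SEL.LocalCond8

namespace Fermat.Agent.MZ.TOP.S15Assemble9

noncomputable section

local notation "Qb" => AlgebraicClosure ℚ

/-- **(K1) RedComm**: the kernels of reduction are stable under the good Hecke operators. -/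
def RedCommProp : Prop :=
  ∀ {r p : ℕ} [NeZero p] {A : ValuationSubring Qb}, p.Prime → r.Prime → r ≠ p → A.LiesOverPrime r →
    ∀ (D : RedData r p A) (q : Nat.Primes), ¬ (q : ℕ) ∣ 6 * p * r →
      ∀ z ∈ Kred D, heckeOperatorBar p q z ∈ Kred D

/-- **(P1) LOCP-GEO** at the prime level `p`. -/
def InertDivProp : Prop :=
  ∀ (p l : ℕ) [Fact p.Prime] [NeZero p], p ∉ ({2, 3, 5, 7, 13} : Finset ℕ) → l.Prime → l ≠ p →
    Fermat.Agent.MZ.LOCP.PushDown7.InertDiv p l p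

/-- **the uniform bound of the Selmer groups** of the `G_P[l^r]`. -/
def SelBoundProp : Prop :=
  ∀ {p : ℕ} [NeZero p] {D : ℕ} [Fact p.Prime] {l : ℕ} [Fact l.Prime], D ≠ 0 → l ∣ D →
    ∀ (P : Ideal (R p D)), l ≠ p → ((l : ℕ) : R p D) ∈ P →
      (∀ (q : Nat.Primes) (hq : ¬ (q : ℕ) ∣ p * D), Tq p D q hq - (((q : ℕ) : R p D) + 1) ∈ P) →
      ∃ C : ℕ, ∀ r : ℕ, 0 < r →
        Finite ↥(Sel (Sset l p) (Mr P l r) (Lstd (ℓS l p) (B0r P l r))) ∧
          Nat.card ↥(Sel (Sset l p) (Mr P l r) (Lstd (ℓS l p) (B0r P l r))) ≤ C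

/-- two coprime integers are not both in a proper ideal. -/
theorem natCast_not_mem {T : Type*} [CommRing T] {P : Ideal T} (hP : P ≠ ⊤) {a b : ℕ}
    (hab : Nat.Coprime a b) (ha : ((a : ℕ) : T) ∈ P) : ((b : ℕ) : T) ∉ P := by
  intro hb
  apply hP
  rw [Ideal.eq_top_iff_one]
  have h1 : IsCoprime (a : ℤ) (b : ℤ) := Nat.isCoprime_iff_coprime.mpr hab
  obtain ⟨u, v, huv⟩ := h1
  have h2 : (1 : T) = (u : T) * ((a : ℕ) : T) + (v : T) * ((b : ℕ) : T) := by
    have := congrArg (Int.cast : ℤ → T) huv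
    push_cast at this
    exact this.symm
  rw [h2]
  exact P.add_mem (P.mul_mem_left _ ha) (P.mul_mem_left _ hb)

/-- **S15 from the four inputs.** -/
theorem s15_of_inputs (hBridge : ModuliBridge) (hRedComm : RedCommProp) (hInert : InertDivProp)
    (hSelB : SelBoundProp)
    {p : ℕ} (hp : p.Prime) (hp' : p ∉ ({2, 3, 5, 7, 13} : Finset ℕ))
    (W : WeierstrassCurve ℤ) (hΔ : W.Δ ≠ 0)
    (Q : ((W.map (Int.castRingHom ℚ))⁄(AlgebraicClosure ℚ)).Point)
    (hQfix : ∀ σ : AlgebraicClosure ℚ ≃ₐ[ℚ] AlgebraicClosure ℚ, σ • Q = Q)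
    (hQord : addOrderOf Q = p)
    (h2Δ : (2 : ℤ) ∣ W.Δ) (h2c₄ : ¬ (2 : ℤ) ∣ W.c₄)
    (h2 : ∀ A : ValuationSubring (AlgebraicClosure ℚ), A.LiesOverPrime 2 → ¬ W.InZeroComponentAt A Q)
    (h3Δ : (3 : ℤ) ∣ W.Δ) (h3c₄ : ¬ (3 : ℤ) ∣ W.c₄)
    (h3 : ∀ A : ValuationSubring (AlgebraicClosure ℚ), A.LiesOverPrime 3 → ¬ W.InZeroComponentAt A Q)
    {ℓ : ℕ} (hℓ : ℓ.Prime) (hℓp : ℓ ≠ p) (hℓΔ : (ℓ : ℤ) ∣ W.Δ) (hℓc₄ : ¬ (ℓ : ℤ) ∣ W.c₄)
    (A : ValuationSubring (AlgebraicClosure ℚ)) (hA : A.LiesOverPrime ℓ) :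
    ¬ W.InZeroComponentAt A Q := by
  classical
  intro hz
  have hℓ2 : ℓ ≠ 2 := by
    rintro rfl
    exact h2 A hA hz
  have hℓ3 : ℓ ≠ 3 := by
    rintro rfl
    exact h3 A hA hz
  haveI : NeZero p := ⟨hp.ne_zero⟩
  haveI : Fact p.Prime := ⟨hp⟩
  have hp11 : 11 ≤ p := by
    simp only [Finset.mem_insert, Finset.mem_singleton, not_or] at hp'
    by_contra hlt
    have hlt' : p < 11 := not_le.mp hlt
    interval_cases p <;> first | omega | (exfalso; revert hp; decide)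
  -- (E0)
  have hQ0 : Q ≠ 0 := by
    intro h0
    rw [h0, addOrderOf_zero] at hQord
    omega
  have hpQ : p • Q = 0 := by
    rw [← hQord]
    exact addOrderOf_nsmul_eq_zero Q
  have hE0 : p ≤ 2 * ℓ - 1 :=
    Fermat.Agent.MZ.TOP.ZeroComp9.prime_le_of_inZeroComponentAt hℓ hA hp hℓp hℓ2 W hℓΔ hℓc₄ Q hQfix
      hQ0 hpQ hz
  -- the Hecke ring and the Eisenstein ideal
  set D : ℕ := 6 * ℓ * (p - 1) with hDdef
  have hD : D ≠ 0 := by
    rw [hDdef]
    exact Nat.mul_ne_zero (Nat.mul_ne_zero (by norm_num) hℓ.ne_zero) (by omega)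
  obtain ⟨P, l', hPmax, hl', hdvd, hlt, hl'P, hann, hEis⟩ :=
    Fermat.Agent.MZ.HECKE.CuspEisD5.exists_eisenstein_maximal (p := p) D hp hp'
  haveI : P.IsMaximal := hPmax
  have hPprime : P.IsPrime := hPmax.isPrime
  have hPtop : P ≠ ⊤ := hPprime.ne_top
  haveI : Fact l'.Prime := ⟨hl'⟩
  have hl'p : l' ≠ p := by
    have := Nat.le_of_dvd (by omega) hdvd
    omega
  have hl'D : l' ∣ D := by
    rw [hDdef]
    exact Dvd.dvd.mul_left hdvd _
  have hl'ℓ : l' < ℓ := by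
    obtain ⟨k, hk⟩ := hdvd
    have hk2 : 2 ≤ k := by
      by_contra hk'
      have hk1 : k ≤ 1 := by omega
      interval_cases k
      · omega
      · omega
    have : 2 * l' ≤ p - 1 := by
      rw [hk]
      calc 2 * l' = l' * 2 := Nat.mul_comm _ _
        _ ≤ l' * k := Nat.mul_le_mul_left _ hk2
    omega
  have hℓP : ((ℓ : ℕ) : R p D) ∉ P :=
    natCast_not_mem hPtop ((Nat.coprime_primes hl' hℓ).mpr (Nat.ne_of_lt hl'ℓ)) hl'P
  -- the auxiliary prime `r ∈ {2, 3}`, `r ≠ l'`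
  obtain ⟨r, hr, hrl', hr6, hrΔ, hrc₄, hrZ⟩ : ∃ r : ℕ, r.Prime ∧ r ≠ l' ∧ r ∣ 6 ∧ (r : ℤ) ∣ W.Δ ∧
      ¬ (r : ℤ) ∣ W.c₄ ∧ ∀ A : ValuationSubring (AlgebraicClosure ℚ), A.LiesOverPrime r →
        ¬ W.InZeroComponentAt A Q := by
    by_cases h : l' = 3
    · exact ⟨2, Nat.prime_two, by omega, by norm_num, h2Δ, h2c₄, h2⟩
    · exact ⟨3, Nat.prime_three, fun h' => h h'.symm, by norm_num, h3Δ, h3c₄, h3⟩
  have hr6' : r ≤ 6 := Nat.le_of_dvd (by norm_num) hr6
  have hrp : r ≠ p := by omega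
  have hrP : ((r : ℕ) : R p D) ∉ P :=
    natCast_not_mem hPtop ((Nat.coprime_primes hl' hr).mpr (Ne.symm hrl')) hl'P
  haveI : Fact r.Prime := ⟨hr⟩
  have hAr : (padicPlace r).LiesOverPrime r := Fermat.Agent.FF.BASE.Place2.liesOverPrime r
  -- the moduli bridge
  obtain ⟨x, hxfix, hx⟩ := hBridge hp hp' W hΔ Q hQfix hQord
  have hzero : IsZeroType p (padicPlace r) x :=
    (hx r hr hrp hrΔ hrc₄ (padicPlace r) hAr).1 (hrZ _ hAr)
  have hinf : IsInfType p A x := (hx ℓ hℓ hℓp hℓΔ hℓc₄ A hA).2 hz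
  -- the kernels of reduction
  have hrp' : ¬ r ∣ p := fun hd => hrp ((Nat.prime_dvd_prime_iff_eq hr hp).mp hd)
  have hℓp' : ¬ ℓ ∣ p := fun hd => hℓp ((Nat.prime_dvd_prime_iff_eq hℓ hp).mp hd)
  obtain ⟨Dr⟩ := exists_redData (p := p) hr hrp' (padicPlace r) hAr
  obtain ⟨Dl⟩ := exists_redData (p := p) hℓ hℓp' A hA
  -- the classes
  set y : JZero p := Pic0.mk ⟨_, sub_single_mem_degZero x (cuspZero p)⟩ with hy
  have hyr : y ∈ Kred Dr := mem_Kred_zeroType hp hr hrp hAr Dr x hzero _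
  have hyc : y + cuspClass p = Pic0.mk ⟨_, sub_single_mem_degZero x (cuspInf p)⟩ := by
    rw [hy, cuspClass, ← Pic0.mk_add]
    congr 1
    apply Subtype.ext
    show (Finsupp.single x (1 : ℤ) - Finsupp.single (cuspZero p) 1) +
      (Finsupp.single (cuspZero p) 1 - Finsupp.single (cuspInf p) 1) =
        Finsupp.single x 1 - Finsupp.single (cuspInf p) 1
    abel
  have hyl : y + cuspClass p ∈ Kred Dl := by
    rw [hyc]
    exact mem_Kred_infType hp hℓ hℓp hA Dl x hinf _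
  -- rationality
  have hyM : y ∈ FixedPoints.addSubgroup (Qb ≃ₐ[ℚ] Qb) (JZero p) := by
    intro σ
    rw [galois_smul_pic0_def, hy, SemilinearAut.pic0_smul_mk]
    congr 1
    apply Subtype.ext
    rw [SemilinearAut.coe_degZeroSMulHom]
    show arithmeticGalois (modularFunctionFieldFull p) σ •
      (Finsupp.single x (1 : ℤ) - Finsupp.single (cuspZero p) 1) = _
    rw [smul_sub, SemilinearAut.smul_single, SemilinearAut.smul_single, hxfix σ,
      arithmeticGalois_smul_cuspZero]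
  -- (F)
  obtain ⟨C, hC⟩ := hSelB (p := p) (D := D) (l := l') hD hl'D P hl'p hl'P hEis
  have hF0 := rank_zero_of_sel_bound (p := p) (D := D) (l := l') hD P hl'p hl'P hEis
    (hInert p l' hp' hl' hl'p) C hC
  have hF : ∀ z ∈ FixedPoints.addSubgroup (Qb ≃ₐ[ℚ] Qb) (JZero p), ∃ t : R p D, t ∉ P ∧
      ∃ m : ℕ, 0 < m ∧ m • (t • z) = 0 := by
    intro z hzM
    obtain ⟨t, htP, n, hn, hnt⟩ := hF0 ⟨z, hzM⟩
    refine ⟨t, htP, n, hn, ?_⟩
    have := congrArg (fun w : ↥(JQsub p D) => (w : JZero p)) hnt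
    simpa using this
  -- Hecke stability
  have hstab : ∀ {r' : ℕ} {A' : ValuationSubring Qb}, r'.Prime → r' ≠ p → A'.LiesOverPrime r' →
      r' ∣ D → ∀ (D' : RedData r' p A') (t : R p D), ∀ z ∈ Kred D', t • z ∈ Kred D' := by
    intro r' A' hr' hr'p hA' hr'D D' t
    refine stable_of_hecke (Kred D') (fun q hq z hzK => ?_) t
    refine hRedComm hp hr' hr'p hA' D' q (fun hdvd => hq ?_) z hzK
    -- `q ∣ 6 p r'` ⟹ `q ∣ p D`
    have h6D : 6 ∣ D := by
      rw [hDdef, Nat.mul_assoc]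
      exact Dvd.intro _ rfl
    rcases (Nat.Prime.dvd_mul q.2).mp hdvd with h | h
    · rcases (Nat.Prime.dvd_mul q.2).mp h with h | h
      · exact Dvd.dvd.mul_left (h.trans h6D) _
      · exact Dvd.dvd.mul_right h _
    · exact Dvd.dvd.mul_left (h.trans hr'D) _
  have hrD : r ∣ D := by
    rw [hDdef, Nat.mul_assoc]
    exact Dvd.dvd.mul_right hr6 _
  have hℓD : ℓ ∣ D := by
    rw [hDdef]
    exact Dvd.dvd.mul_right (Dvd.intro_left 6 rfl) _
  exact Fermat.Agent.MZ.TOP.Endgame9.endgame P hPprime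
    (FixedPoints.addSubgroup (Qb ≃ₐ[ℚ] Qb) (JZero p)) (cuspClass p) y
    (cuspClass_mem_fixedPoints p) hyM hann hF r ℓ hr.ne_one hℓ.ne_one hrP hℓP (Kred Dr) (Kred Dl)
    (hstab hr hrp hAr hrD Dr) (hstab hℓ hℓp hA hℓD Dl)
    (fun z hzK m hm hmz => Kred_inj hr hrp' hAr Dr hzK hm hmz)
    (fun z hzK m hm hmz => Kred_inj hℓ hℓp' hA Dl hzK hm hmz) hyr hyl

end

end Fermat.Agent.MZ.TOP.S15Assemble9
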