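/-
PROGRAMME MZ (S15), chapter TOP, item **(K1) RedComm** (helper1): the Hecke operators `T_q`
(`q ∤ 6 p r`) preserve the kernel of reduction `Kred D ⊆ J₀(p)` at a place `A ∣ r`, `r ∤ p`.

Route: `T_q` moves to the auxiliary level `M = auxLevel r p` (`LevelTop20`); there
`T_q = α_* β^*` with `α, β : F_M → F_{Mq}`; both levels carry the good two-chart models of ES/RED
(`ModelOfInst12.model_of_hasLevels` + `LevelsHyp12.levelsHyp`), and
`RedCore1.correspondence_mem_ker` applies: pull-back compatibility by the divisibility trick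
(`RedTrick1`), push-forward compatibility through the chart rings (`RedPush1`).

* `isIntegral_of_isGen` : an embedding of function fields of curves is integral;
* `betaC` : `q ↦ q^ℓ` on the special fibres, `F~_M → F~_{Mℓ}`;
* `map_mem_chart` : an embedding maps `chart A t` into `chart A (φ t)`;
* `level_stable` : `T_q` preserves the kernel of ANY reduction map at a level `M` carrying a
  Hauptmodul base, `q r ∤ M`;
* **`heckeOperatorBar_mem_Kred`** : (K1).
-/
import Mathlib
import Fermat.Agent.X0.FFConst
import Fermat.Agent.RED.PUR.ChartGeneric22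
import Fermat.Prelude.Def_ModularCurve_X0ModL

set_option autoImplicit false
set_option linter.unusedSectionVars false
set_option linter.unusedVariables false
set_option linter.style.longLine false
set_option linter.style.haveILetI false
set_option synthInstance.maxHeartbeats 400000
set_option maxHeartbeats 1000000

open AlgebraicCurve ModularCurve HahnSeries IntermediateField

noncomputable section

namespace Fermat.Agent.MZ.TOP.RedAux1

open Fermat.Agent.X0.FF Fermat.Agent.RED.PUR.ChartGeneric22


/-! ### an embedding of function fields of curves is integral -/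

section Integral

variable {K F F' : Type*} [Field K] [Field F] [Field F'] [Algebra K F] [Algebra K F']

theorem isIntegral_of_isGen (φ : F →ₐ[K] F') {x : F} (hx : Transcendental K x) {x' : F'}
    (hx' : IsGen K x') : φ.toRingHom.IsIntegral := by
  have hu : Transcendental K (φ x) := fun h =>
    hx ((isAlgebraic_algHom_iff φ φ.toRingHom.injective).mp h)
  have hgen : IsGen K (φ x) := hx'.of_transcendental hu
  haveI : FiniteDimensional K⟮φ x⟯ F' := hgen.finite
  have hle : K⟮φ x⟯ ≤ φ.fieldRange := by
    rw [IntermediateField.adjoin_le_iff]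
    rintro _ rfl
    exact ⟨x, rfl⟩
  intro z
  obtain ⟨p, hp, hpz⟩ : IsIntegral K⟮φ x⟯ z := IsIntegral.of_finite _ z
  have hlift : p.map (algebraMap K⟮φ x⟯ F') ∈ Polynomial.lifts φ.toRingHom := by
    rw [Polynomial.lifts_iff_coeff_lifts]
    intro n
    rw [Polynomial.coeff_map]
    obtain ⟨y, hy⟩ := hle (p.coeff n).2
    exact ⟨y, hy⟩
  obtain ⟨q, hq, -, hqm⟩ := Polynomial.lifts_and_degree_eq_and_monic hlift (hp.map _)
  refine ⟨q, hqm, ?_⟩
  rw [← Polynomial.eval_map, hq, Polynomial.eval_map]
  exact hpz

end Integral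

/-! ### `q ↦ q^ℓ` on the special fibres -/

section BetaC

variable (k : Type*) [Field k] (M ℓ : ℕ) [NeZero M] [NeZero ℓ]

/-- `q ↦ q^ℓ` : `F~_M → F~_{Mℓ}`. -/
def betaC : ↥(modularFunctionFieldFullC k M) →ₐ[k] ↥(modularFunctionFieldFullC k (M * ℓ)) where
  toFun f := ⟨qExpand k ℓ (f : LaurentSeries k),
    full_degeneracyC_map_le k M ℓ ⟨f, f.2, rfl⟩⟩
  map_one' := Subtype.ext (map_one (qExpand k ℓ))
  map_mul' _ _ := Subtype.ext (map_mul (qExpand k ℓ) _ _)
  map_zero' := Subtype.ext (map_zero (qExpand k ℓ))
  map_add' _ _ := Subtype.ext (map_add (qExpand k ℓ) _ _)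
  commutes' a := Subtype.ext <| by
    show qExpand k ℓ (algebraMap k (LaurentSeries k) a) = algebraMap k (LaurentSeries k) a
    rw [algebraMap_laurentSeries_eq_single, qExpand_single, mul_zero]

theorem coe_betaC (f : ↥(modularFunctionFieldFullC k M)) :
    ((betaC k M ℓ f : ↥(modularFunctionFieldFullC k (M * ℓ))) : LaurentSeries k) =
      qExpand k ℓ (f : LaurentSeries k) := rfl

end BetaC

/-! ### charts -/

section Chart

variable {L F₁ F₂ : Type*} [Field L] [Field F₁] [Field F₂] [Algebra L F₁] [Algebra L F₂]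
variable {A : ValuationSubring L} [Algebra A F₁] [IsScalarTower A L F₁] [Algebra A F₂]
  [IsScalarTower A L F₂]

theorem map_algebraMap_A (φ : F₁ →ₐ[L] F₂) (a : A) :
    φ (algebraMap A F₁ a) = algebraMap A F₂ a := by
  rw [IsScalarTower.algebraMap_apply A L F₁, IsScalarTower.algebraMap_apply A L F₂,
    AlgHom.commutes]

theorem map_adjoin_mem (φ : F₁ →ₐ[L] F₂) {t : F₁} {y : F₁}
    (hy : y ∈ Algebra.adjoin A {t}) : φ y ∈ Algebra.adjoin A {φ t} := by
  induction hy using Algebra.adjoin_induction with
  | mem x hx =>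
    rw [Set.mem_singleton_iff] at hx
    subst hx
    exact Algebra.self_mem_adjoin_singleton A _
  | algebraMap r =>
    rw [map_algebraMap_A]
    exact Subalgebra.algebraMap_mem _ r
  | add x y _ _ hx hy => rw [map_add]; exact Subalgebra.add_mem _ hx hy
  | mul x y _ _ hx hy => rw [map_mul]; exact Subalgebra.mul_mem _ hx hy

/-- **an embedding maps `chart A t` into `chart A (φ t)`.** -/
theorem map_mem_chart (φ : F₁ →ₐ[L] F₂) {t b : F₁} (hb : b ∈ chart A t) :
    φ b ∈ chart A (φ t) := by
  rw [mem_chart_iff] at hb ⊢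
  let ψ : ↥(Algebra.adjoin A {t}) →+* ↥(Algebra.adjoin A {φ t}) :=
    (φ.toRingHom.comp (Algebra.adjoin A {t}).val.toRingHom).codRestrict
      (Algebra.adjoin A {φ t}).toSubring (fun y => map_adjoin_mem φ y.2)
  exact IsIntegral.map_of_comp_eq ψ φ.toRingHom (RingHom.ext fun _ => rfl) hb

end Chart

end Fermat.Agent.MZ.TOP.RedAux1
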