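/-
PROGRAMME MZ (S15), chapter TOP, item (K1) RedComm (helper1), part 1: **the divisibility trick**.

Setting of the Prelude's `IsPlaceReductionAlong` (level `N`, valuation ring `A ≤ L`, `π : A → k`).

* `eq_zero_of_degZero` : an additive map `δ : Div(F_N) → X →₀ ℤ` which kills the divisors of the
  integral functions kills all divisors of degree `0` (`Pic⁰` divisible, target torsion free) —
  the argument of the Prelude's `IsPlaceReductionAlong.eq_or_const_of_agree`;
* `mapDomain_pullbackAlong` : **pull-back compatibility of two reduction maps** along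
  `φ : F_N → F_N'` (char. `0`) and `φbar : F~_N → F~_N'` (char. of `k`) which act compatibly on
  integral `q`-expansions: `r'_* (φ^* D) = φbar^* (r_* D)` for `D` of degree `0`.
-/
import Mathlib
import Fermat.Prelude.Def_ModularCurve_ReductionModL
import Fermat.Prelude.Def_AlgebraicCurve_Correspondence

set_option autoImplicit false
set_option linter.unusedSectionVars false
set_option linter.unusedVariables false
set_option linter.style.longLine false
set_option synthInstance.maxHeartbeats 400000
set_option maxHeartbeats 1000000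

open AlgebraicCurve ModularCurve HahnSeries

noncomputable section

namespace Fermat.Agent.MZ.TOP.RedTrick1

variable {L : Type*} [Field L] [Algebra ℚ L] {A : ValuationSubring L}
variable {k : Type*} [Field k] {π : A →+* k} {N : ℕ}

theorem int_eq_zero_of_forall_dvd {a : ℤ} (h : ∀ n : ℕ, n ≠ 0 → (n : ℤ) ∣ a) : a = 0 :=
  Int.eq_zero_of_dvd_of_natAbs_lt_natAbs (h (a.natAbs + 1) (Nat.succ_ne_zero _))
    (by rw [Int.natAbs_natCast]; exact Nat.lt_succ_self _)

/-- **the divisibility trick.** -/
theorem eq_zero_of_degZero {X : Type*}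
    (δ : Divisor L (laurentBaseChange L (modularFunctionFieldFull N)) →+ (X →₀ ℤ))
    (hgen : PrincipalGeneratedByIntegral A π N)
    (hδ : ∀ E ∈ integralPrincipalDivisors A π N, δ E = 0)
    (hdiv : ∀ n : ℕ, n ≠ 0 → ∀ x : Pic0 L (laurentBaseChange L (modularFunctionFieldFull N)),
      ∃ y : Pic0 L (laurentBaseChange L (modularFunctionFieldFull N)), n • y = x)
    {D : Divisor L (laurentBaseChange L (modularFunctionFieldFull N))}
    (hD : D ∈ Divisor.degZero (K := L) (F := laurentBaseChange L (modularFunctionFieldFull N))) :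
    δ D = 0 := by
  classical
  have hδprin : ∀ D ∈ Divisor.principal (K := L)
      (F := laurentBaseChange L (modularFunctionFieldFull N)), δ D = 0 := by
    intro D hD
    have hD' := hgen hD
    clear hD
    induction hD' using AddSubgroup.closure_induction with
    | mem E hE => exact hδ E hE
    | zero => exact map_zero δ
    | add E E' _ _ hE hE' => rw [map_add, hE, hE', add_zero]
    | neg E _ hE => rw [map_neg, hE, neg_zero]
  ext Q
  rw [Finsupp.zero_apply]
  refine int_eq_zero_of_forall_dvd fun n hn => ?_
  obtain ⟨y, hy⟩ := hdiv n hn (Pic0.mk ⟨D, hD⟩)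
  obtain ⟨E, rfl⟩ := Pic0.mk_surjective y
  have hmem : ((⟨D, hD⟩ : Divisor.degZero (K := L)
      (F := laurentBaseChange L (modularFunctionFieldFull N))) - n • E :
        Divisor.degZero (K := L) (F := laurentBaseChange L (modularFunctionFieldFull N))) ∈
      (Divisor.principal (K := L)
        (F := laurentBaseChange L (modularFunctionFieldFull N))).addSubgroupOf
          (Divisor.degZero (K := L) (F := laurentBaseChange L (modularFunctionFieldFull N))) := by
    rw [← QuotientAddGroup.eq_iff_sub_mem, QuotientAddGroup.mk_nsmul]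
    exact hy.symm
  rw [AddSubgroup.mem_addSubgroupOf, AddSubgroupClass.coe_sub, AddSubgroupClass.coe_nsmul] at hmem
  have h0 := hδprin _ hmem
  rw [map_sub, map_nsmul, sub_eq_zero] at h0
  refine ⟨δ (E : Divisor L (laurentBaseChange L (modularFunctionFieldFull N))) Q, ?_⟩
  rw [h0, Finsupp.smul_apply, nsmul_eq_mul]

section Pull

variable {N' : ℕ}
  {r : Place L (laurentBaseChange L (modularFunctionFieldFull N)) →
    Place k (modularFunctionFieldFullC k N)}
  {r' : Place L (laurentBaseChange L (modularFunctionFieldFull N')) →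
    Place k (modularFunctionFieldFullC k N')}
  [HasPrincipalDivisors L (laurentBaseChange L (modularFunctionFieldFull N'))]
  [HasPrincipalDivisors k (modularFunctionFieldFullC k N')]
  (φ : laurentBaseChange L (modularFunctionFieldFull N) →ₐ[L]
    laurentBaseChange L (modularFunctionFieldFull N'))
  (hφ : φ.toRingHom.IsIntegral)
  (φbar : modularFunctionFieldFullC k N →ₐ[k] modularFunctionFieldFullC k N')
  (hφbar : φbar.toRingHom.IsIntegral)

/-- the divisor of `φ f` is the pull-back of the divisor of `f`. -/
theorem pullbackAlong_eq_ord {K F F' : Type*} [Field K] [Field F] [Field F'] [Algebra K F]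
    [Algebra K F'] [HasPrincipalDivisors K F'] (χ : F →ₐ[K] F') (hχ : χ.toRingHom.IsIntegral)
    {D : Divisor K F} {f : F} (hD : ∀ P, D P = P.ord f) (w : Place K F') :
    Divisor.pullbackAlong χ hχ D w = w.ord (χ f) := by
  rw [Divisor.pullbackAlong_apply, hD, Place.ord_restrictAlong χ hχ]

/-- **pull-back compatibility on divisors of degree `0`.** -/
theorem mapDomain_pullbackAlong
    (hr : IsPlaceReductionAlong A π N r) (hgen : PrincipalGeneratedByIntegral A π N)
    (hr' : IsPlaceReductionAlong A π N' r')
    (hser : ∀ (y : LaurentSeries A)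
      (hy : coeffMap A.subtype y ∈ laurentBaseChange L (modularFunctionFieldFull N))
      (hyk : coeffMap π y ∈ modularFunctionFieldFullC k N),
      ∃ y' : LaurentSeries A,
        coeffMap A.subtype y' = ((φ ⟨_, hy⟩ :
          laurentBaseChange L (modularFunctionFieldFull N')) : LaurentSeries L) ∧
        coeffMap π y' = ((φbar ⟨_, hyk⟩ : modularFunctionFieldFullC k N') : LaurentSeries k))
    (hdiv : ∀ n : ℕ, n ≠ 0 → ∀ x : Pic0 L (laurentBaseChange L (modularFunctionFieldFull N)),
      ∃ y : Pic0 L (laurentBaseChange L (modularFunctionFieldFull N)), n • y = x)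
    {D : Divisor L (laurentBaseChange L (modularFunctionFieldFull N))}
    (hD : D ∈ Divisor.degZero (K := L) (F := laurentBaseChange L (modularFunctionFieldFull N))) :
    Finsupp.mapDomain r' (Divisor.pullbackAlong φ hφ D) =
      Divisor.pullbackAlong φbar hφbar (Finsupp.mapDomain r D) := by
  classical
  set δ : Divisor L (laurentBaseChange L (modularFunctionFieldFull N)) →+
      Divisor k (modularFunctionFieldFullC k N') :=
    (Finsupp.mapDomain.addMonoidHom r').comp (Divisor.pullbackAlong φ hφ) -
      (Divisor.pullbackAlong φbar hφbar).comp (Finsupp.mapDomain.addMonoidHom r) with hδ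
  have key : δ D = 0 := by
    refine eq_zero_of_degZero δ hgen ?_ hdiv hD
    rintro E ⟨y, hy, hyk, hne, hE⟩
    obtain ⟨y', h1, h2⟩ := hser y hy hyk
    have hy' : coeffMap A.subtype y' ∈ laurentBaseChange L (modularFunctionFieldFull N') := by
      rw [h1]; exact (φ ⟨_, hy⟩).2
    have hyk' : coeffMap π y' ∈ modularFunctionFieldFullC k N' := by
      rw [h2]; exact (φbar ⟨_, hyk⟩).2
    have e1 : (⟨coeffMap A.subtype y', hy'⟩ :
        laurentBaseChange L (modularFunctionFieldFull N')) = φ ⟨_, hy⟩ := Subtype.ext h1
    have e2 : (⟨coeffMap π y', hyk'⟩ : modularFunctionFieldFullC k N') = φbar ⟨_, hyk⟩ :=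
      Subtype.ext h2
    have hne' : coeffMap π y' ≠ 0 := by
      intro h0
      have h3 : φbar ⟨_, hyk⟩ = 0 := by
        rw [← e2]; exact Subtype.ext h0
      have h4 : (⟨coeffMap π y, hyk⟩ : modularFunctionFieldFullC k N) = 0 :=
        (map_eq_zero φbar).mp h3
      exact hne (congrArg Subtype.val h4)
    have hE' : ∀ P', Divisor.pullbackAlong φ hφ E P' =
        P'.ord (⟨coeffMap A.subtype y', hy'⟩ :
          laurentBaseChange L (modularFunctionFieldFull N')) := by
      intro P'
      rw [e1]
      exact pullbackAlong_eq_ord φ hφ hE P'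
    ext Q
    have hA := hr'.2 y' hy' hyk' hne' (Divisor.pullbackAlong φ hφ E) hE' Q
    have hB : ∀ Q₁, Finsupp.mapDomain r E Q₁ =
        Q₁.ord (⟨coeffMap π y, hyk⟩ : modularFunctionFieldFullC k N) :=
      fun Q₁ => hr.2 y hy hyk hne E hE Q₁
    rw [hδ, AddMonoidHom.sub_apply, Finsupp.sub_apply, Finsupp.zero_apply]
    show Finsupp.mapDomain r' (Divisor.pullbackAlong φ hφ E) Q -
      Divisor.pullbackAlong φbar hφbar (Finsupp.mapDomain r E) Q = 0
    rw [hA, pullbackAlong_eq_ord φbar hφbar hB Q, e2, sub_self]
  rw [hδ, AddMonoidHom.sub_apply, sub_eq_zero] at key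
  exact key

end Pull

end Fermat.Agent.MZ.TOP.RedTrick1
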