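/-
PROGRAMME MZ (S15), chapter TOP, item (K1) RedComm (helper1), part 3: **the abstract core**.

Setting of the Prelude's `IsPlaceReductionAlong` at two levels `N`, `N'`; `α β : F_N → F_N'`.

* `mapDomain_eq_of_degZero` : two place reductions at the same level agree on the divisors of
  degree `0` (so the kernel of reduction does not depend on the chosen reduction map);
* `exists_rep` : a class in the kernel of reduction is the class of a divisor of degree `0` whose
  reduction vanishes as a divisor;
* `pushforwardAlong_eq_mapDomain`, `mapDomain_pushforwardAlong` : push-forward compatibility from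
  `r₀ (P'|F_N) = ρ (r' P')`;
* **`correspondence_mem_ker`** : `α_* β^*` preserves the kernel of `reductionPic0Along r`.
-/
import Mathlib
import Fermat.Agent.MZ.TOP.RedTrick1
import Fermat.Agent.FF.IFACE.RedFrac1

set_option autoImplicit false
set_option linter.unusedSectionVars false
set_option linter.unusedVariables false
set_option linter.style.longLine false
set_option linter.style.haveILetI false
set_option synthInstance.maxHeartbeats 400000
set_option maxHeartbeats 1000000

open AlgebraicCurve ModularCurve HahnSeries

noncomputable section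

namespace Fermat.Agent.MZ.TOP.RedCore1

open Fermat.Agent.MZ.TOP.RedTrick1 Fermat.Agent.FF.IFACE.RedFrac1
  Fermat.Agent.ES.RED.GaussRing15 Fermat.Agent.FF.IFACE.GaussVal1

section Push

variable {K F F' X Y : Type*} [Field K] [Field F] [Field F'] [Algebra K F] [Algebra K F']
  (φ : F →ₐ[K] F') (hφ : φ.toRingHom.IsIntegral)

/-- inertia degrees are `1` at places of degree `1`. -/
theorem inertiaDegAlong_eq_one (w : Place K F') (hw : w.deg = 1) :
    w.inertiaDegAlong φ hφ = 1 := by
  letI := algebraAlong φ
  haveI := isScalarTower_along φ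
  haveI := isIntegral_along φ hφ
  have h := w.deg_restrict_mul_inertiaDeg (F := F)
  rw [hw] at h
  exact Nat.eq_one_of_mul_eq_one_left h

/-- with all inertia degrees one the push-forward is `mapDomain` of the restriction of places. -/
theorem pushforwardAlong_eq_mapDomain (hf : ∀ w : Place K F', w.inertiaDegAlong φ hφ = 1)
    (D : Divisor K F') :
    Divisor.pushforwardAlong φ hφ D = Finsupp.mapDomain (fun w => w.restrictAlong φ hφ) D := by
  induction D using Finsupp.induction_linear with
  | zero => rw [map_zero, Finsupp.mapDomain_zero]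
  | add D D' h h' => rw [map_add, Finsupp.mapDomain_add, h, h']
  | single w n =>
    rw [Divisor.pushforwardAlong_single, Finsupp.mapDomain_single, hf]
    simp

/-- push-forward compatibility. -/
theorem mapDomain_pushforwardAlong (hf : ∀ w : Place K F', w.inertiaDegAlong φ hφ = 1)
    (r₀ : Place K F → X) (r' : Place K F' → Y) (ρ : Y → X)
    (hρ : ∀ w : Place K F', r₀ (w.restrictAlong φ hφ) = ρ (r' w)) (D : Divisor K F') :
    Finsupp.mapDomain r₀ (Divisor.pushforwardAlong φ hφ D) =
      Finsupp.mapDomain ρ (Finsupp.mapDomain r' D) := by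
  rw [pushforwardAlong_eq_mapDomain φ hφ hf, ← Finsupp.mapDomain_comp, ← Finsupp.mapDomain_comp]
  congr 1
  funext w
  exact hρ w

end Push

variable {L : Type*} [Field L] [Algebra ℚ L] {A : ValuationSubring L}
variable {k : Type*} [Field k] {π : A →+* k} {N : ℕ}

/-- **two place reductions agree on the divisors of degree `0`.** -/
theorem mapDomain_eq_of_degZero
    {r₁ r₂ : Place L (laurentBaseChange L (modularFunctionFieldFull N)) →
      Place k (modularFunctionFieldFullC k N)}
    (hr₁ : IsPlaceReductionAlong A π N r₁) (hr₂ : IsPlaceReductionAlong A π N r₂)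
    (hgen : PrincipalGeneratedByIntegral A π N)
    (hdiv : ∀ n : ℕ, n ≠ 0 → ∀ x : Pic0 L (laurentBaseChange L (modularFunctionFieldFull N)),
      ∃ y : Pic0 L (laurentBaseChange L (modularFunctionFieldFull N)), n • y = x)
    {D : Divisor L (laurentBaseChange L (modularFunctionFieldFull N))}
    (hD : D ∈ Divisor.degZero (K := L) (F := laurentBaseChange L (modularFunctionFieldFull N))) :
    Finsupp.mapDomain r₁ D = Finsupp.mapDomain r₂ D := by
  classical
  set δ : Divisor L (laurentBaseChange L (modularFunctionFieldFull N)) →+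
      Divisor k (modularFunctionFieldFullC k N) :=
    Finsupp.mapDomain.addMonoidHom r₁ - Finsupp.mapDomain.addMonoidHom r₂ with hδ
  have key : δ D = 0 := by
    refine eq_zero_of_degZero δ hgen ?_ hdiv hD
    rintro E ⟨y, hy, hyk, hne, hE⟩
    ext Q
    rw [hδ, AddMonoidHom.sub_apply, Finsupp.sub_apply, Finsupp.zero_apply]
    show Finsupp.mapDomain r₁ E Q - Finsupp.mapDomain r₂ E Q = 0
    rw [hr₁.2 y hy hyk hne E hE Q, hr₂.2 y hy hyk hne E hE Q, sub_self]
  rw [hδ, AddMonoidHom.sub_apply, sub_eq_zero] at key
  exact key

variable [NeZero N]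

/-- **a class in the kernel of reduction has a representative whose reduction vanishes.** -/
theorem exists_rep (hπ : Function.Surjective π)
    {r : Place L (laurentBaseChange L (modularFunctionFieldFull N)) →
      Place k (modularFunctionFieldFullC k N)}
    (hr : IsPlaceReductionAlong A π N r) (hgen : PrincipalGeneratedByIntegral A π N)
    (hdivL : HasDiv L ↥(laurentBaseChange L (modularFunctionFieldFull N)))
    (x : Pic0 L (laurentBaseChange L (modularFunctionFieldFull N)))
    (hx : reductionPic0Along r hr hgen x = 0) :
    ∃ E : Divisor.degZero (K := L) (F := laurentBaseChange L (modularFunctionFieldFull N)),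
      Pic0.mk E = x ∧
        Finsupp.mapDomain r (E : Divisor L (laurentBaseChange L (modularFunctionFieldFull N))) =
          0 := by
  classical
  obtain ⟨E, rfl⟩ := Pic0.mk_surjective x
  rw [reductionPic0Along_mk] at hx
  have h1 : reductionDegZeroAlong r hr.1 E ∈
      (Divisor.principal (K := k) (F := modularFunctionFieldFullC k N)).addSubgroupOf
        (Divisor.degZero (K := k) (F := modularFunctionFieldFullC k N)) :=
    (QuotientAddGroup.eq_zero_iff _).mp hx
  rw [AddSubgroup.mem_addSubgroupOf, coe_reductionDegZeroAlong] at h1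
  obtain ⟨f, hf, hfE⟩ := h1
  obtain ⟨a, b, hb, e⟩ := exists_red_fraction (A := A) (π := π) (M := N) hπ f
  have ha : gaussRedN A π N a ≠ 0 := by
    rw [← e]; exact mul_ne_zero hf hb
  have ha0 := coe_ne_zero_of_red_ne_zero _ ha
  have hb0 := coe_ne_zero_of_red_ne_zero _ hb
  obtain ⟨Da, hDa, hdega⟩ := hdivL _ ha0
  obtain ⟨Db, hDb, hdegb⟩ := hdivL _ hb0
  have hDa' : Da ∈ Divisor.principal (K := L)
      (F := laurentBaseChange L (modularFunctionFieldFull N)) := ⟨_, ha0, hDa⟩
  have hDb' : Db ∈ Divisor.principal (K := L)
      (F := laurentBaseChange L (modularFunctionFieldFull N)) := ⟨_, hb0, hDb⟩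
  set Ea : Divisor.degZero (K := L) (F := laurentBaseChange L (modularFunctionFieldFull N)) :=
    ⟨Da, hdega⟩ with hEa
  set Eb : Divisor.degZero (K := L) (F := laurentBaseChange L (modularFunctionFieldFull N)) :=
    ⟨Db, hdegb⟩ with hEb
  have hmka : Pic0.mk Ea = 0 := by
    refine (QuotientAddGroup.eq_zero_iff _).mpr ?_
    rw [AddSubgroup.mem_addSubgroupOf]
    exact hDa'
  have hmkb : Pic0.mk Eb = 0 := by
    refine (QuotientAddGroup.eq_zero_iff _).mpr ?_
    rw [AddSubgroup.mem_addSubgroupOf]
    exact hDb'
  refine ⟨E - Ea + Eb, ?_, ?_⟩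
  · show ((E - Ea + Eb : Divisor.degZero (K := L)
      (F := laurentBaseChange L (modularFunctionFieldFull N))) :
        Pic0 L (laurentBaseChange L (modularFunctionFieldFull N))) = Pic0.mk E
    rw [QuotientAddGroup.mk_add, QuotientAddGroup.mk_sub]
    show Pic0.mk E - Pic0.mk Ea + Pic0.mk Eb = Pic0.mk E
    rw [hmka, hmkb, sub_zero, add_zero]
  · rw [AddSubgroup.coe_add, AddSubgroupClass.coe_sub, Finsupp.mapDomain_add,
      Finsupp.mapDomain_sub]
    ext Q
    rw [Finsupp.add_apply, Finsupp.sub_apply, Finsupp.zero_apply, hfE Q]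
    show Q.ord f - Finsupp.mapDomain r Da Q + Finsupp.mapDomain r Db Q = 0
    rw [compat₀ hr a ha Da hDa Q, compat₀ hr b hb Db hDb Q]
    have h2 := congrArg Q.ord e
    rw [Q.ord_mul hf hb] at h2
    omega

section Core

variable {N' : ℕ}
  [HasPrincipalDivisors L (laurentBaseChange L (modularFunctionFieldFull N'))]
  [HasPrincipalDivisors k (modularFunctionFieldFullC k N')]

/-- **the correspondence `α_* β^*` preserves the kernel of reduction.** -/
theorem correspondence_mem_ker (hπ : Function.Surjective π)
    {r r₀ : Place L (laurentBaseChange L (modularFunctionFieldFull N)) →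
      Place k (modularFunctionFieldFullC k N)}
    {r' : Place L (laurentBaseChange L (modularFunctionFieldFull N')) →
      Place k (modularFunctionFieldFullC k N')}
    (hr : IsPlaceReductionAlong A π N r) (hgen : PrincipalGeneratedByIntegral A π N)
    (hr₀ : IsPlaceReductionAlong A π N r₀) (hr' : IsPlaceReductionAlong A π N' r')
    (hdivL : HasDiv L ↥(laurentBaseChange L (modularFunctionFieldFull N)))
    (hdiv : ∀ n : ℕ, n ≠ 0 → ∀ x : Pic0 L (laurentBaseChange L (modularFunctionFieldFull N)),
      ∃ y : Pic0 L (laurentBaseChange L (modularFunctionFieldFull N)), n • y = x)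
    (α β : laurentBaseChange L (modularFunctionFieldFull N) →ₐ[L]
      laurentBaseChange L (modularFunctionFieldFull N'))
    (hα : α.toRingHom.IsIntegral) (hβ : β.toRingHom.IsIntegral)
    (βbar : modularFunctionFieldFullC k N →ₐ[k] modularFunctionFieldFullC k N')
    (hβbar : βbar.toRingHom.IsIntegral)
    (hser : ∀ (y : LaurentSeries A)
      (hy : coeffMap A.subtype y ∈ laurentBaseChange L (modularFunctionFieldFull N))
      (hyk : coeffMap π y ∈ modularFunctionFieldFullC k N),
      ∃ y' : LaurentSeries A,
        coeffMap A.subtype y' = ((β ⟨_, hy⟩ :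
          laurentBaseChange L (modularFunctionFieldFull N')) : LaurentSeries L) ∧
        coeffMap π y' = ((βbar ⟨_, hyk⟩ : modularFunctionFieldFullC k N') : LaurentSeries k))
    (ρ : Place k (modularFunctionFieldFullC k N') → Place k (modularFunctionFieldFullC k N))
    (hρ : ∀ w : Place L (laurentBaseChange L (modularFunctionFieldFull N')),
      r₀ (w.restrictAlong α hα) = ρ (r' w))
    (hdeg' : ∀ w : Place L (laurentBaseChange L (modularFunctionFieldFull N')), w.deg = 1)
    (hFI : FundamentalIdentityAlong L β hβ) (hfin : FiniteAlong L α)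
    (hN : NormFormulaAlong L α hfin)
    (x : Pic0 L (laurentBaseChange L (modularFunctionFieldFull N)))
    (hx : reductionPic0Along r hr hgen x = 0) :
    reductionPic0Along r hr hgen (Pic0.correspondence β α hβ hα hFI hfin hN x) = 0 := by
  classical
  obtain ⟨E, rfl, hE⟩ := exists_rep hπ hr hgen hdivL x hx
  rw [Pic0.correspondence_mk, reductionPic0Along_mk]
  have hmem : Divisor.correspondence β α hβ hα
      (E : Divisor L (laurentBaseChange L (modularFunctionFieldFull N))) ∈
      Divisor.degZero (K := L) (F := laurentBaseChange L (modularFunctionFieldFull N)) :=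
    Divisor.correspondence_mem_degZero β α hβ hα hFI E.2
  have hf : ∀ w : Place L (laurentBaseChange L (modularFunctionFieldFull N')),
      w.inertiaDegAlong α hα = 1 := fun w => inertiaDegAlong_eq_one α hα w (hdeg' w)
  have hzero : reductionDegZeroAlong r hr.1 (Pic0.degZeroCorrespondence β α hβ hα hFI E) = 0 := by
    apply Subtype.ext
    rw [coe_reductionDegZeroAlong, Pic0.coe_degZeroCorrespondence,
      mapDomain_eq_of_degZero hr hr₀ hgen hdiv hmem, Divisor.correspondence_apply,
      mapDomain_pushforwardAlong α hα hf r₀ r' ρ hρ,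
      mapDomain_pullbackAlong β hβ βbar hβbar hr hgen hr' hser hdiv E.2, hE, map_zero,
      Finsupp.mapDomain_zero]
    rfl
  rw [hzero]
  rfl

end Core

end Fermat.Agent.MZ.TOP.RedCore1
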