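/-
PROGRAMME MZ (S15), chapter TOP, item (K1) RedComm (helper1), part 2: **push-forward compatibility of
the reduction maps of two good two-chart models** (`ES/RED/TwoCharts8`) along a covering `φ : F₁ → F₂`
which maps the chart rings into the chart rings and the coordinate to the coordinate.

* `valueHom_restrictAlong` : `f (P|F₁) = (φ f)(P)`;
* `chi_restrictAlong` : the centre of `P|F₁` is `b ↦ χ_P (φ b)`;
* `rAt_eq_of_chi_eq` : the place `r(P)` only depends on the centre `χ_P`;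
* **`r_restrictAlong_eq`** : `T₂.r P = T₂.r P' → T₁.r (P|F₁) = T₁.r (P'|F₁)`  (weak form of
  `r₁ (P|F₁) = ρ (r₂ P)`; no map on the special fibres is needed);
* `exists_rho` : the induced map `ρ` on the places of the special fibres;
* (`mapDomain_pushforwardAlong` is in `RedCore1`.)
-/
import Mathlib
import Fermat.Agent.ES.RED.TwoCharts8
import Fermat.Prelude.Def_AlgebraicCurve_Correspondence

set_option autoImplicit false
set_option linter.unusedSectionVars false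
set_option linter.unusedVariables false
set_option linter.style.longLine false
set_option synthInstance.maxHeartbeats 400000
set_option maxHeartbeats 1000000

open AlgebraicCurve

noncomputable section

namespace Fermat.Agent.MZ.TOP.RedPush1

open Fermat.Agent.X0.FF Fermat.Agent.ES.RED.PlaceValue13 Fermat.Agent.ES.RED.Contract8
  Fermat.Agent.ES.RED.TwoCharts8

theorem pos_of_natCast_mul_pos {e : ℕ} {m : ℤ} (h : 0 < (e : ℤ) * m) : 0 < m := by
  have he : (0 : ℤ) ≤ e := Nat.cast_nonneg e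
  by_contra hm
  have : (e : ℤ) * m ≤ 0 := mul_nonpos_of_nonneg_of_nonpos he (not_lt.mp hm)
  omega

section Value

variable {K F F' : Type*} [Field K] [IsAlgClosed K] [Field F] [Field F'] [Algebra K F]
  [Algebra K F'] {x : F} (hx : IsGen K x) {x' : F'} (hx' : IsGen K x')
  (φ : F →ₐ[K] F') (hφ : φ.toRingHom.IsIntegral)

theorem mem_restrictAlong_iff (P' : Place K F') (f : F) :
    f ∈ (P'.restrictAlong φ hφ).toValuationSubring ↔ φ f ∈ P'.toValuationSubring := Iff.rfl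

/-- the value of `f` at the place under `P'` is the value of `φ f` at `P'`. -/
theorem valueHom_restrictAlong (P' : Place K F') {f : F} (hf : φ f ∈ P'.toValuationSubring) :
    valueHom hx (P'.restrictAlong φ hφ) ⟨f, (mem_restrictAlong_iff φ hφ P' f).mpr hf⟩ =
      valueHom hx' P' ⟨φ f, hf⟩ := by
  set c := valueHom hx' P' ⟨φ f, hf⟩ with hc
  rw [valueHom_eq_iff]
  have h := (valueHom_eq_iff hx' P' ⟨φ f, hf⟩ c).mp rfl
  rcases h with h | h
  · left
    apply φ.toRingHom.injective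
    show φ f = φ (algebraMap K F c)
    rw [φ.commutes]
    exact h
  · right
    have h2 := Place.ord_restrictAlong φ hφ P' (f - algebraMap K F c)
    rw [map_sub, φ.commutes] at h2
    have h3 : (0 : ℤ) < (Place.ramificationIndexAlong φ P' : ℤ) *
        (P'.restrictAlong φ hφ).ord (f - algebraMap K F c) := by
      rw [← h2]; exact h
    exact pos_of_natCast_mul_pos h3

end Value

variable {L : Type*} [Field L] [IsAlgClosed L] {A : ValuationSubring L}
variable {F₁ F₂ : Type*} [Field F₁] [Field F₂] [Algebra L F₁] [Algebra L F₂]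
  {x₁ : F₁} {hx₁ : IsGen L x₁} {x₂ : F₂} {hx₂ : IsGen L x₂}
variable {Ft₁ Ft₂ : Type*} [Field Ft₁] [Field Ft₂] [Algebra (kA A) Ft₁] [Algebra (kA A) Ft₂]

/-- the value does not depend on the proof of membership nor on equal places. -/
theorem valueHom_congr_place {K F : Type*} [Field K] [IsAlgClosed K] [Field F] [Algebra K F]
    {x : F} (hx : IsGen K x) {Q Q' : Place K F} (e : Q = Q') {y : F}
    (hy : y ∈ Q.toValuationSubring) (hy' : y ∈ Q'.toValuationSubring) :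
    valueHom hx Q ⟨y, hy⟩ = valueHom hx Q' ⟨y, hy'⟩ := by
  subst e
  rfl

section OneChart

variable (S₁ : ChartSpec A hx₁ Ft₁) (S₂ : ChartSpec A hx₂ Ft₂)
  (φ : F₁ →ₐ[L] F₂) (hφ : φ.toRingHom.IsIntegral)
  (hmap : ∀ b ∈ S₁.B, φ b ∈ S₂.B) (hs : φ S₁.s = S₂.s)

include hs in
/-- a place in the chart `S₂` restricts to a place in the chart `S₁`. -/
theorem inChart_restrictAlong (P : Place L F₂) (hP : S₂.InChart P) :
    S₁.InChart (P.restrictAlong φ hφ) := by
  obtain ⟨hmem, hval⟩ := hP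
  have hmem' : φ S₁.s ∈ P.toValuationSubring := by rw [hs]; exact hmem
  refine ⟨(mem_restrictAlong_iff φ hφ P S₁.s).mpr hmem', ?_⟩
  rw [valueHom_restrictAlong hx₁ hx₂ φ hφ P hmem']
  have e : (⟨φ S₁.s, hmem'⟩ : ↥P.toValuationSubring) = ⟨S₂.s, hmem⟩ := Subtype.ext hs
  rw [e]
  exact hval

include hmap in
/-- the centre of the restricted place. -/
theorem chi_restrictAlong (P : Place L F₂) (hP : S₂.InChart P)
    (hP₁ : S₁.InChart (P.restrictAlong φ hφ)) (b : ↥S₁.B) :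
    S₁.chi (P.restrictAlong φ hφ) hP₁ b = S₂.chi P hP ⟨φ (b : F₁), hmap _ b.2⟩ := by
  rw [ChartSpec.chi_apply, ChartSpec.chi_apply]
  congr 1
  apply Subtype.ext
  rw [ChartSpec.coe_ev, ChartSpec.coe_ev]
  exact valueHom_restrictAlong hx₁ hx₂ φ hφ P (S₂.mem_place P hP _ (hmap _ b.2))

/-- **`r(P)` only depends on the centre of `P`.** -/
theorem rAt_eq_of_chi_eq (hS : HasPlaces S₁) (htr : Transcendental (kA A) (S₁.red S₁.sB))
    (P P' : Place L F₁) (hP : S₁.InChart P) (hP' : S₁.InChart P')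
    (h : ∀ b : ↥S₁.B, S₁.chi P hP b = S₁.chi P' hP' b) :
    rAt hS htr P hP = rAt hS htr P' hP' := by
  apply Place.ext
  ext y
  constructor
  · intro hy
    obtain ⟨a, d, hd, e⟩ := (mem_rAt_iff hS htr P hP y).mp hy
    exact (mem_rAt_iff hS htr P' hP' y).mpr ⟨a, d, by rw [← h]; exact hd, e⟩
  · intro hy
    obtain ⟨a, d, hd, e⟩ := (mem_rAt_iff hS htr P' hP' y).mp hy
    exact (mem_rAt_iff hS htr P hP y).mpr ⟨a, d, by rw [h]; exact hd, e⟩

end OneChart

section TwoChartsSec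

variable [IsAlgClosed (kA A)] {xt₂ : Ft₂} (hxt₂ : IsGen (kA A) xt₂)
  {xt₁ : Ft₁} (hxt₁ : IsGen (kA A) xt₁)
  (T₁ : TwoCharts A hx₁ Ft₁) (T₂ : TwoCharts A hx₂ Ft₂)
  (φ : F₁ →ₐ[L] F₂) (hφ : φ.toRingHom.IsIntegral)
  (hmap0 : ∀ b ∈ T₁.S0.B, φ b ∈ T₂.S0.B) (hmap1 : ∀ b ∈ T₁.S1.B, φ b ∈ T₂.S1.B)
  (hs : φ T₁.S0.s = T₂.S0.s)

include hs in
theorem map_s1 : φ T₁.S1.s = T₂.S1.s := by
  rw [T₁.s_inv, T₂.s_inv, map_inv₀, hs]

include hxt₁ hxt₂ hmap0 hmap1 hs in
/-- **weak push-forward compatibility of the reduction maps.** -/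
theorem r_restrictAlong_eq (P P' : Place L F₂) (h : T₂.r P = T₂.r P') :
    T₁.r (P.restrictAlong φ hφ) = T₁.r (P'.restrictAlong φ hφ) := by
  by_cases h0 : T₂.S0.InChart P
  · -- chart 0
    have hred : T₂.S0.red T₂.S0.sB ∈ (T₂.r P').toValuationSubring := by
      rw [← h, T₂.r_eq0 P h0]
      exact red_mem_rAt T₂.places0 T₂.tr0 P h0 _
    have h0' : T₂.S0.InChart P' := T₂.inChart0_of_red_mem hxt₂ P' hred
    have hP₁ := inChart_restrictAlong T₁.S0 T₂.S0 φ hφ hs P h0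
    have hP₁' := inChart_restrictAlong T₁.S0 T₂.S0 φ hφ hs P' h0'
    rw [T₁.r_eq0 _ hP₁, T₁.r_eq0 _ hP₁']
    refine rAt_eq_of_chi_eq T₁.S0 T₁.places0 T₁.tr0 _ _ hP₁ hP₁' fun b => ?_
    rw [chi_restrictAlong T₁.S0 T₂.S0 φ hφ hmap0 P h0 hP₁ b,
      chi_restrictAlong T₁.S0 T₂.S0 φ hφ hmap0 P' h0' hP₁' b,
      ← valueHom_rAt hxt₂ T₂.places0 T₂.tr0 P h0, ← valueHom_rAt hxt₂ T₂.places0 T₂.tr0 P' h0']
    have e : rAt T₂.places0 T₂.tr0 P h0 = rAt T₂.places0 T₂.tr0 P' h0' := by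
      rw [← T₂.r_eq0 P h0, ← T₂.r_eq0 P' h0', h]
    exact valueHom_congr_place hxt₂ e _ _
  · -- chart 1
    have h1 : T₂.S1.InChart P := (T₂.inChart_or P).resolve_left h0
    have hred : T₂.S1.red T₂.S1.sB ∈ (T₂.r P').toValuationSubring := by
      rw [← h, T₂.r_eq1 hxt₂ P h1]
      exact red_mem_rAt T₂.places1 T₂.tr1 P h1 _
    have h1' : T₂.S1.InChart P' := T₂.inChart1_of_red_mem hxt₂ P' hred
    have hs1 := map_s1 T₁ T₂ φ hs
    have hP₁ := inChart_restrictAlong T₁.S1 T₂.S1 φ hφ hs1 P h1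
    have hP₁' := inChart_restrictAlong T₁.S1 T₂.S1 φ hφ hs1 P' h1'
    rw [T₁.r_eq1 hxt₁ _ hP₁, T₁.r_eq1 hxt₁ _ hP₁']
    refine rAt_eq_of_chi_eq T₁.S1 T₁.places1 T₁.tr1 _ _ hP₁ hP₁' fun b => ?_
    rw [chi_restrictAlong T₁.S1 T₂.S1 φ hφ hmap1 P h1 hP₁ b,
      chi_restrictAlong T₁.S1 T₂.S1 φ hφ hmap1 P' h1' hP₁' b,
      ← valueHom_rAt hxt₂ T₂.places1 T₂.tr1 P h1, ← valueHom_rAt hxt₂ T₂.places1 T₂.tr1 P' h1']
    have e : rAt T₂.places1 T₂.tr1 P h1 = rAt T₂.places1 T₂.tr1 P' h1' := by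
      rw [← T₂.r_eq1 hxt₂ P h1, ← T₂.r_eq1 hxt₂ P' h1', h]
    exact valueHom_congr_place hxt₂ e _ _

include hxt₁ hxt₂ hmap0 hmap1 hs in
/-- the induced map on the places of the special fibres. -/
theorem exists_rho (P₀ : Place L F₂) : ∃ ρ : Place (kA A) Ft₂ → Place (kA A) Ft₁,
    ∀ P : Place L F₂, T₁.r (P.restrictAlong φ hφ) = ρ (T₂.r P) := by
  classical
  refine ⟨fun Q => if hQ : ∃ P, T₂.r P = Q then T₁.r (hQ.choose.restrictAlong φ hφ)
    else T₁.r (P₀.restrictAlong φ hφ), fun P => ?_⟩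
  have hQ : ∃ P', T₂.r P' = T₂.r P := ⟨P, rfl⟩
  beta_reduce
  rw [dif_pos hQ]
  exact r_restrictAlong_eq hxt₂ hxt₁ T₁ T₂ φ hφ hmap0 hmap1 hs _ _ hQ.choose_spec.symm

end TwoChartsSec

end Fermat.Agent.MZ.TOP.RedPush1
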