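/-
PROGRAMME MZ (S15), chapter TOP, item **(K1) RedComm** (helper1): the Hecke operators `T_q`
(`q ∤ 6 p r`) preserve the kernel of reduction `Kred D ⊆ J₀(p)` at a place `A ∣ r`, `r ∤ p`.

Route: `T_q` moves to the auxiliary level `M = auxLevel r p` (`LevelTop20`); there
`T_q = α_* β^*` with `α, β : F_M → F_{Mq}`; both levels carry the good two-chart models of ES/RED
(`ModelOfInst12.model_of_hasLevels` + `LevelsHyp12.levelsHyp`), and
`RedCore1.correspondence_mem_ker` applies: pull-back compatibility by the divisibility trick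
(`RedTrick1`), push-forward compatibility through the chart rings (`RedPush1`).

* `isIntegral_of_isGen` : an embedding of function fields of curves is integral;
* `betaC` : `q ↦ q^ℓ` on the special fibres, `F~_M → F~_{Mℓ}`;
* `map_mem_chart` : an embedding maps `chart A t` into `chart A (φ t)`;
* `level_stable` : `T_q` preserves the kernel of ANY reduction map at a level `M` carrying a
  Hauptmodul base, `q r ∤ M`;
* **`heckeOperatorBar_mem_Kred`** : (K1).
-/
import Mathlib
import Fermat.Agent.MZ.TOP.Kred9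
import Fermat.Agent.MZ.TOP.RedCore1
import Fermat.Agent.MZ.TOP.RedPush1
import Fermat.Agent.MZ.TOP.RedAux1
import Fermat.Agent.MW.A.NSGlue2

set_option autoImplicit false
set_option linter.unusedSectionVars false
set_option linter.unusedVariables false
set_option linter.style.longLine false
set_option linter.style.haveILetI false
set_option synthInstance.maxHeartbeats 400000
set_option maxHeartbeats 1000000

open AlgebraicCurve ModularCurve HahnSeries IntermediateField

noncomputable section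

namespace Fermat.Agent.MZ.TOP.RedComm1

open Fermat.Agent.X0.FF Fermat.Agent.RED.Interface4 Fermat.Agent.ES.HECKE.LevelPullback12
  Fermat.Agent.RED.LVL Fermat.Agent.ES.RED.Contract8 Fermat.Agent.ES.RED.TwoCharts8
  Fermat.Agent.RED.PUR.ChartGeneric22 Fermat.Agent.MZ.TOP.Kred9
  Fermat.Agent.MZ.TOP.RedAux1

/-- `ℚbar`. -/
local notation "Qb" => AlgebraicClosure ℚ

/-! ### the level theorem -/

section Level

open Fermat.Agent.RED.BASE.Hauptmodul12 Fermat.Agent.RED.BASE.MainCusp12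
  Fermat.Agent.FF.IFACE.RedFrac1

theorem coe_tF1 (n e M : ℕ) [NeZero n] [NeZero M]
    (hmem : Fermat.Agent.RED.BASE.Interface12.TMem n e M) :
    ((Fermat.Agent.RED.BASE.Interface12.tF M hmem : ↥(modularFunctionFieldBar M)) :
      LaurentSeries Qb) = Fermat.Agent.RED.BASE.Interface12.tK n e := rfl

/-- `α t = t`. -/
theorem alpha_tF (n e M q : ℕ) [NeZero n] [NeZero M] [NeZero q]
    (hmem : Fermat.Agent.RED.BASE.Interface12.TMem n e M)
    (hmem' : Fermat.Agent.RED.BASE.Interface12.TMem n e (M * q)) :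
    heckeAlphaBar Qb M q (Fermat.Agent.RED.BASE.Interface12.tF M hmem) =
      Fermat.Agent.RED.BASE.Interface12.tF (M * q) hmem' := by
  apply Subtype.ext
  rw [coe_heckeAlphaBar, coe_tF1, coe_tF1]

/-- **`T_q` preserves the kernel of reduction at a level `M` carrying a Hauptmodul base.** -/
theorem level_stable (n e : ℕ) [NeZero n] (hb : BaseHyp n e) (M : ℕ) [NeZero M] (hnM : n ∣ M)
    (r : ℕ) [Fact r.Prime] (hrM : ¬ r ∣ M) (A : ValuationSubring Qb) (hA : A.LiesOverPrime r)
    (q : ℕ) [NeZero q] (hq : q.Prime) (hqM : ¬ q ∣ M) (hqr : q ≠ r)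
    (rmap : Place Qb ↥(modularFunctionFieldBar M) →
      Place (kA A) ↥(modularFunctionFieldFullC (kA A) M))
    (hr : IsPlaceReductionAlong A (IsLocalRing.residue ↥A) M rmap)
    (hgen : PrincipalGeneratedByIntegral A (IsLocalRing.residue ↥A) M)
    (x : JZero M) (hx : reductionPic0Along rmap hr hgen x = 0) :
    reductionPic0Along rmap hr hgen (heckeOperatorAlong Qb M q x) = 0 := by
  haveI : NeZero (M * q) := ⟨Nat.mul_ne_zero (NeZero.ne M) (NeZero.ne q)⟩
  have hrM' : ¬ r ∣ M * q := by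
    intro h
    rcases (Nat.Prime.dvd_mul Fact.out).mp h with h | h
    · exact hrM h
    · exact hqr ((Nat.prime_dvd_prime_iff_eq Fact.out hq).mp h).symm
  have hnM' : n ∣ M * q := hnM.mul_right q
  haveI : IsAlgClosed (kA A) := Fermat.Agent.ES.KRON.KronInst10.isAlgClosed_residueField A
  -- the two models
  obtain ⟨hmem, x₁, hx₁, T₁, c0, c1, hs0, p0, p1⟩ :=
    Fermat.Agent.ES.TOP.ModelOfInst12.model_of_hasLevels n e M r hrM
      (tMem_of_dvd hb hnM) (tGenBase' hb) A hA
      (Fermat.Agent.ES.TOP.LevelsHyp12.levelsHyp n e hb M hnM r hrM A hA).1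
      (Fermat.Agent.ES.TOP.LevelsHyp12.levelsHyp n e hb M hnM r hrM A hA).2
  obtain ⟨hmem', x₂, hx₂, T₂, c0', c1', hs0', p0', p1'⟩ :=
    Fermat.Agent.ES.TOP.ModelOfInst12.model_of_hasLevels n e (M * q) r hrM'
      (tMem_of_dvd hb hnM') (tGenBase' hb) A hA
      (Fermat.Agent.ES.TOP.LevelsHyp12.levelsHyp n e hb (M * q) hnM' r hrM' A hA).1
      (Fermat.Agent.ES.TOP.LevelsHyp12.levelsHyp n e hb (M * q) hnM' r hrM' A hA).2
  obtain ⟨h0, h1⟩ := Fermat.Agent.ES.RED.RedInst15.chartInputs_both n e M r hrM hmem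
    (tGenBase' hb) A hA T₁ c0 c1 hs0 p0 p1
  obtain ⟨h0', h1'⟩ := Fermat.Agent.ES.RED.RedInst15.chartInputs_both n e (M * q) r hrM' hmem'
    (tGenBase' hb) A hA T₂ c0' c1' hs0' p0' p1'
  have hr₀ : IsPlaceReductionAlong A (IsLocalRing.residue ↥A) M T₁.r :=
    Fermat.Agent.ES.RED.RedMain15.isPlaceReductionModL_twoCharts T₁ h0 h1
  have hr' : IsPlaceReductionAlong A (IsLocalRing.residue ↥A) (M * q) T₂.r :=
    Fermat.Agent.ES.RED.RedMain15.isPlaceReductionModL_twoCharts T₂ h0' h1'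
  -- the Hecke inputs
  obtain ⟨hα, hβ, hP, hfin, hFI, hN⟩ :=
    Fermat.Agent.ES.HECKE.InputsFinal15.heckeInputsAlong_bar M q hq hqM
  haveI := hP
  rw [heckeOperatorAlong_eq hα hβ hFI hfin hN]
  have hπ : Function.Surjective (IsLocalRing.residue ↥A) := IsLocalRing.residue_surjective
  have hdivL : HasDiv Qb ↥(laurentBaseChange Qb (modularFunctionFieldFull M)) := fun f hf =>
    (Fermat.Agent.RED.TOP.FbarFacts20.hasPrincipalDivisors_bar M).exists_divisor f hf
  have hdivL' : HasDiv Qb ↥(laurentBaseChange Qb (modularFunctionFieldFull (M * q))) :=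
    fun f hf => hP.exists_divisor f hf
  haveI : HasPrincipalDivisors (kA A) ↥(modularFunctionFieldFullC (kA A) (M * q)) :=
    ⟨exists_divisor_red hπ hr' hdivL'⟩
  have hdiv : ∀ m : ℕ, m ≠ 0 →
      ∀ y : Pic0 Qb ↥(laurentBaseChange Qb (modularFunctionFieldFull M)),
        ∃ z : Pic0 Qb ↥(laurentBaseChange Qb (modularFunctionFieldFull M)), m • z = y :=
    fun m hm y => Fermat.Agent.MW.A.NSGlue2.jzero_divisible M m (Nat.pos_of_ne_zero hm) y
  -- the map on the special fibres
  have hβbar : (betaC (kA A) M q).toRingHom.IsIntegral :=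
    isIntegral_of_isGen (betaC (kA A) M q) h0.gent.transcendental h0'.gent
  have hser : ∀ (y : LaurentSeries ↥A)
      (hy : coeffMap A.subtype y ∈ laurentBaseChange Qb (modularFunctionFieldFull M))
      (hyk : coeffMap (IsLocalRing.residue ↥A) y ∈ modularFunctionFieldFullC (kA A) M),
      ∃ y' : LaurentSeries ↥A,
        coeffMap A.subtype y' = ((heckeBetaBar Qb M q ⟨_, hy⟩ :
          ↥(laurentBaseChange Qb (modularFunctionFieldFull (M * q)))) : LaurentSeries Qb) ∧
        coeffMap (IsLocalRing.residue ↥A) y' = ((betaC (kA A) M q ⟨_, hyk⟩ :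
          ↥(modularFunctionFieldFullC (kA A) (M * q))) : LaurentSeries (kA A)) := by
    intro y hy hyk
    refine ⟨qExpand ↥A q y, ?_, ?_⟩
    · rw [ModularCurve.coeffMap_qExpand]
      rfl
    · rw [ModularCurve.coeffMap_qExpand]
      rfl
  -- the chart rings
  have hs : heckeAlphaBar Qb M q T₁.S0.s = T₂.S0.s := by
    rw [hs0, hs0']
    exact alpha_tF n e M q hmem hmem'
  have hs1 : heckeAlphaBar Qb M q T₁.S1.s = T₂.S1.s :=
    Fermat.Agent.MZ.TOP.RedPush1.map_s1 T₁ T₂ (heckeAlphaBar Qb M q) hs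
  have hmap0 : ∀ b ∈ T₁.S0.B, heckeAlphaBar Qb M q b ∈ T₂.S0.B := fun b hb =>
    (c0'.mem_iff _).mpr (by rw [← hs]; exact map_mem_chart _ ((c0.mem_iff b).mp hb))
  have hmap1 : ∀ b ∈ T₁.S1.B, heckeAlphaBar Qb M q b ∈ T₂.S1.B := fun b hb =>
    (c1'.mem_iff _).mpr (by rw [← hs1]; exact map_mem_chart _ ((c1.mem_iff b).mp hb))
  obtain ⟨P₀⟩ := Fermat.Agent.RED.TOP.FbarFacts20.nonempty_place_bar (M * q)
  obtain ⟨ρ, hρ⟩ := Fermat.Agent.MZ.TOP.RedPush1.exists_rho h0'.gent h0.gent T₁ T₂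
    (heckeAlphaBar Qb M q) hα hmap0 hmap1 hs P₀
  exact Fermat.Agent.MZ.TOP.RedCore1.correspondence_mem_ker hπ hr hgen hr₀ hr' hdivL hdiv
    (heckeAlphaBar Qb M q) (heckeBetaBar Qb M q) hα hβ (betaC (kA A) M q) hβbar hser ρ hρ
    (Fermat.Agent.RED.TOP.FbarFacts20.deg_eq_one_bar (M * q)) hFI hfin hN x hx

end Level

/-! ### (K1) -/

theorem not_dvd_auxLevel_of {q r p : ℕ} (hq : q.Prime) (hq6 : ¬ q ∣ 6) (hqp : ¬ q ∣ p) :
    ¬ q ∣ auxLevel r p := by
  intro h
  unfold auxLevel at h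
  split_ifs at h
  · have h1 : q ∣ p * 9 := h.trans (Nat.lcm_dvd_mul p 9)
    rcases (Nat.Prime.dvd_mul hq).mp h1 with h2 | h2
    · exact hqp h2
    · have h3 : q ∣ 3 * 3 := by simpa using h2
      rcases (Nat.Prime.dvd_mul hq).mp h3 with h4 | h4 <;>
        exact hq6 (h4.trans (by norm_num))
  · have h1 : q ∣ p * 4 := h.trans (Nat.lcm_dvd_mul p 4)
    rcases (Nat.Prime.dvd_mul hq).mp h1 with h2 | h2
    · exact hqp h2
    · have h3 : q ∣ 2 * 2 := by simpa using h2
      rcases (Nat.Prime.dvd_mul hq).mp h3 with h4 | h4 <;>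
        exact hq6 (h4.trans (by norm_num))

/-- **(K1) RedComm, level form**: `T_q` on `J₀(auxLevel r p)` preserves the kernel of every
reduction map. -/
theorem aux_stable {r p : ℕ} [NeZero p] {A : ValuationSubring Qb} (hr : r.Prime) (hrp : ¬ r ∣ p)
    (hA : A.LiesOverPrime r) (q : ℕ) [NeZero q] (hq : q.Prime) (hq6 : ¬ q ∣ 6) (hqp : ¬ q ∣ p)
    (hqr : q ≠ r) (D : RedData r p A) (x : JZero (auxLevel r p))
    (hx : reductionPic0Along D.rmap D.hr D.hgen x = 0) :
    reductionPic0Along D.rmap D.hr D.hgen (heckeOperatorAlong Qb (auxLevel r p) q x) = 0 := by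
  haveI : Fact r.Prime := ⟨hr⟩
  have key : ¬ q ∣ auxLevel r p → ∀ [NeZero (auxLevel r p)]
      (rmap : Place Qb ↥(modularFunctionFieldBar (auxLevel r p)) →
        Place (kA A) ↥(modularFunctionFieldFullC (kA A) (auxLevel r p)))
      (hr : IsPlaceReductionAlong A (IsLocalRing.residue ↥A) (auxLevel r p) rmap)
      (hgen : PrincipalGeneratedByIntegral A (IsLocalRing.residue ↥A) (auxLevel r p))
      (x : JZero (auxLevel r p)), reductionPic0Along rmap hr hgen x = 0 →
        reductionPic0Along rmap hr hgen (heckeOperatorAlong Qb (auxLevel r p) q x) = 0 := by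
    refine Fermat.Agent.ES.TOP.AuxBase8.of_base hr (NeZero.ne p) hrp
      (fun M => ¬ q ∣ M → ∀ [NeZero M]
        (rmap : Place Qb ↥(modularFunctionFieldBar M) →
          Place (kA A) ↥(modularFunctionFieldFullC (kA A) M))
        (hr : IsPlaceReductionAlong A (IsLocalRing.residue ↥A) M rmap)
        (hgen : PrincipalGeneratedByIntegral A (IsLocalRing.residue ↥A) M)
        (x : JZero M), reductionPic0Along rmap hr hgen x = 0 →
          reductionPic0Along rmap hr hgen (heckeOperatorAlong Qb M q x) = 0) ?_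
    intro n e _ hb M hM0 hnM _ hrM hqM _ rmap hr' hgen x hx
    exact level_stable n e hb M hnM r hrM A hA q hq hqM hqr rmap hr' hgen x hx
  exact key (not_dvd_auxLevel_of hq hq6 hqp) D.rmap D.hr D.hgen x hx

/-- **(K1) RedComm.** -/
theorem heckeOperatorBar_mem_Kred {r p : ℕ} [NeZero p] {A : ValuationSubring Qb} (hr : r.Prime)
    (hrp : ¬ r ∣ p) (hA : A.LiesOverPrime r) (D : RedData r p A) (q : Nat.Primes)
    (hq : ¬ (q : ℕ) ∣ 6 * p * r) {z : JZero p} (hz : z ∈ Kred D) :
    heckeOperatorBar p q z ∈ Kred D := by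
  haveI : NeZero (q : ℕ) := ⟨q.2.ne_zero⟩
  have hq6 : ¬ (q : ℕ) ∣ 6 := fun h => hq ((h.mul_right p).mul_right r)
  have hqp : ¬ (q : ℕ) ∣ p := fun h => hq ((h.mul_left 6).mul_right r)
  have hqr : (q : ℕ) ≠ r := fun h => hq (h ▸ dvd_mul_left _ _)
  rw [mem_Kred] at hz ⊢
  rw [heckeOperatorBar_apply,
    Fermat.Agent.ES.HECKE.LevelTop20.levelPullback_heckeOperatorAlong (dvd_auxLevel r p) q.2
      (not_dvd_auxLevel_of q.2 hq6 hqp) z]
  exact aux_stable hr hrp hA (q : ℕ) q.2 hq6 hqp hqr D _ hz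

end Fermat.Agent.MZ.TOP.RedComm1
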