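/-
Programme MZ (S15), chapter TOP (helper9): **the inputs of `S15Assemble9.s15_of_inputs`, as they land.**

* `redCommProp : RedCommProp` — (K1), helper1's `RedComm1.heckeOperatorBar_mem_Kred`.
-/
import Mathlib
import Fermat.Agent.MZ.TOP.S15Assemble9
import Fermat.Agent.MZ.TOP.RedComm1

set_option autoImplicit false

namespace Fermat.Agent.MZ.TOP.S15Inputs9

open Fermat.Agent.MZ.TOP.S15Assemble9

/-- **(K1)**: the kernels of reduction are Hecke-stable. -/
theorem redCommProp : RedCommProp := fun hp hr hrp hA D q hq z hz =>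
  Fermat.Agent.MZ.TOP.RedComm1.heckeOperatorBar_mem_Kred hr
    ((Nat.prime_dvd_prime_iff_eq hr hp).not.mpr hrp) hA D q hq hz

end Fermat.Agent.MZ.TOP.S15Inputs9
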