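/-
Programme MZ (S15), chapter TOP (helper9): **the inertia counts at `p` for the duality trick (D5)**.

* `card_le_sq_Ninv` : `M : Rep ℤ GQ` finite, discrete, killed by `m`, `p ∤ m`, with unipotent inertia at
  `p` (`(τ - 1)² = 0` on `M` for `τ ∈ I_p`): `#M ≤ #(M^{I_p})²`, in the vocabulary `Defect8.Ninv p M ⊥` of
  SEL's final inequality (`SelFinal8.card_sel_le_final_dual`, hypothesis `hcount`).
* `unip_of_pairing` : unipotence passes to any module `M'` paired with `M` (`pair : M' → M → Ω`, separating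
  on the left) as soon as `τ` preserves the pairing (`pair (τ f) (τ x) = pair f x`; for the Cartier dual:
  inertia at `p` acts trivially on `μ_n`, `p ∤ n`, `inertia_fixes_root`).
* `unip_subRep` : the instance `M = subRep G` (`G ⊆ J₀(N)[m]`, `p ∥ N`, `p ∤ m`; the S34 chain,
  `Inertia5.unip_local`), and `card_subRep_le`.
-/
import Mathlib
import Fermat.Agent.MZ.HECKE.Inertia5
import Fermat.Agent.MZ.SEL.Defect8
import Fermat.Agent.MZ.ORDL.OrdPeuInst6
import Fermat.Agent.TW.FLAT.TameGen4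
import Fermat.Agent.ES.P36.ZetaUnr26

set_option autoImplicit false
set_option linter.unusedSectionVars false
set_option linter.style.longLine false
set_option linter.style.haveILetI false

open AlgebraicCurve ModularCurve
open Fermat.Agent.PT.PRO.LevelCoh28 Fermat.Agent.PT.PRO.LevelCohRes28
open Fermat.Agent.PT.GLUE.Objects21
open Fermat.Agent.TW.DEF.Basic1
open Fermat.Agent.TW.LOC.Defs2 (Iq)
open Fermat.Agent.MZ.SEL.Defect8
open Fermat.Agent.MZ.ORDL.OrdPeuInst6

attribute [-instance] AddCommGroup.toIntModule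

namespace Fermat.Agent.MZ.TOP.InertiaCount9

noncomputable section

variable {p : ℕ} [Fact p.Prime]

/-- the action of the local Galois group on a global module. -/
@[reducible] def locAct (p : ℕ) [Fact p.Prime] (M : Rep.{0} ℤ GQ) : DistribMulAction (Gq p) M where
  smul τ x := M.ρ (rq p τ) x
  one_smul x := by
    show M.ρ (rq p 1) x = x
    rw [map_one, map_one]
    rfl
  mul_smul a b x := by
    show M.ρ (rq p (a * b)) x = M.ρ (rq p a) (M.ρ (rq p b) x)
    rw [map_mul, map_mul]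
    rfl
  smul_zero a := map_zero _
  smul_add a x y := map_add _ x y

/-- **`#M ≤ #(M^{I_p})²`** for a finite discrete module with unipotent inertia at `p`, killed by an
integer prime to `p`. -/
theorem card_le_sq_Ninv (M : Rep.{0} ℤ GQ) [Finite M] (S : Finset Nat.Primes)
    (hdisc : IsDiscrete (levelS S).sets M) {m : ℕ} (hpm : ¬ p ∣ m) (hm : ∀ x : M, m • x = 0)
    (hunip : ∀ τ ∈ Iq p, ∀ x : M,
      M.ρ (rq p τ) (M.ρ (rq p τ) x) + x = M.ρ (rq p τ) x + M.ρ (rq p τ) x) :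
    Nat.card M ≤ Nat.card ↥(Ninv p M (⊥ : Submodule ℤ M)) ^ 2 := by
  classical
  letI : DistribMulAction (Gq p) M := locAct p M
  have hsmul : ∀ (τ : Gq p) (x : M), τ • x = M.ρ (rq p τ) x := fun _ _ => rfl
  let g : Gq p →* Equiv.Perm M := MulAction.toPermHom (Gq p) M
  have hg : ∀ (τ : Gq p) (x : M), g τ x = τ • x := fun _ _ => rfl
  have hlev : ∃ U ∈ (levelLoc p).sets, U ≤ g.ker := by
    obtain ⟨U, hU, -, hfix⟩ :=
      hdisc.exists_fixing (levelS S).isBasis (T := Set.univ) Set.finite_univ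
    refine ⟨U.comap (rq p), ⟨U, levelSetS_subset_levelSetAll S hU, rfl⟩, fun τ hτ => ?_⟩
    rw [MonoidHom.mem_ker]
    ext x
    rw [hg, Equiv.Perm.coe_one, id_eq, hsmul]
    exact hfix _ hτ x (Set.mem_univ x)
  obtain ⟨g₀, hg₀, W, hWI, -, hW, hgen, -⟩ :=
    Fermat.Agent.TW.FLAT.TameGen4.exists_tame_gen g hlev
  have key := Fermat.Agent.MZ.HECKE.UnipAbs5.card_le_sq_fixed (X := M) (Γ := Gq p) (Iq p)
    (Fact.out : p.Prime) hpm hm (fun τ hτ x => hunip τ hτ x) g₀ hg₀ W hWI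
    (fun π hπ => by
      obtain ⟨n, hn⟩ := hW π hπ
      refine ⟨n, fun x => ?_⟩
      rw [← map_pow] at hn
      have := DFunLike.congr_fun hn x
      rwa [hg, Equiv.Perm.coe_one, id_eq] at this)
    (fun σ hσ => by
      obtain ⟨j, π, hπ, h⟩ := hgen σ hσ
      refine ⟨j, π, hπ, fun x => ?_⟩
      rw [← map_pow, ← map_mul] at h
      have := DFunLike.congr_fun h x
      rwa [hg, hg, mul_smul] at this)
  have hcard : Nat.card {x : M // ∀ τ ∈ Iq p, τ • x = x} =
      Nat.card ↥(Ninv p M (⊥ : Submodule ℤ M)) := by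
    refine Nat.card_congr (Equiv.subtypeEquivRight fun x => ?_)
    rw [mem_Ninv]
    refine forall₂_congr fun τ _ => ?_
    rw [Submodule.mem_bot, sub_eq_zero, hsmul]
  rw [← hcard]
  exact key

/-! ### unipotence passes to a paired module -/

/-- If `τ` is unipotent on `M` (`(τ - 1)² = 0`) and preserves a pairing `M' × M → Ω` which is
separating on the left, then `τ` is unipotent on `M'`. -/
theorem unip_of_pairing {M M' : Rep.{0} ℤ GQ} {Ω : Type*} [CommGroup Ω] (pair : M' → M → Ω)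
    (hadd_left : ∀ (f g : M') (x : M), pair (f + g) x = pair f x * pair g x)
    (hadd_right : ∀ (f : M') (x y : M), pair f (x + y) = pair f x * pair f y)
    (hinj : ∀ f g : M', (∀ x : M, pair f x = pair g x) → f = g)
    (τ : GQ) (hτ : ∀ (f : M') (x : M), pair (M'.ρ τ f) (M.ρ τ x) = pair f x)
    (hunip : ∀ x : M, M.ρ τ (M.ρ τ x) + x = M.ρ τ x + M.ρ τ x) (f : M') :
    M'.ρ τ (M'.ρ τ f) + f = M'.ρ τ f + M'.ρ τ f := by
  refine hinj _ _ fun x => ?_
  have hinv : ∀ y : M, M.ρ τ (M.ρ τ⁻¹ y) = y := fun y => by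
    rw [← Module.End.mul_apply, ← map_mul, mul_inv_cancel, map_one]
    rfl
  have h1 : ∀ (f' : M') (y : M), pair (M'.ρ τ f') y = pair f' (M.ρ τ⁻¹ y) := fun f' y => by
    conv_lhs => rw [← hinv y]
    exact hτ f' _
  rw [hadd_left, hadd_left, h1, h1, h1, ← hadd_right, ← hadd_right]
  congr 1
  set y := M.ρ τ⁻¹ (M.ρ τ⁻¹ x) with hy
  have h2 := hunip y
  rw [hy, hinv, hinv] at h2
  rw [add_comm, h2]

/-- inertia at `p` fixes the roots of unity of order prime to `p`. -/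
theorem inertia_fixes_root {n : ℕ} (hpn : ¬ p ∣ n) {τ : Gq p} (hτ : τ ∈ Iq p)
    {ζ : AlgebraicClosure ℚ} (hζ : ζ ^ n = 1) : rq p τ ζ = ζ :=
  Fermat.Agent.ES.P36.ZetaUnr26.inertia_fixes_rootOfUnity (Fact.out : p.Prime)
    (Fermat.Agent.FF.BASE.Place2.liesOverPrime p) hpn hζ
    (Fermat.Agent.TW.LOC.Defs2.rq_mem_inertia p hτ)

/-! ### the instance `subRep G` -/

variable {N : ℕ} [NeZero N]

/-- unipotence of inertia at `p ∥ N` on a Galois-stable subgroup of `J₀(N)[m]`, `p ∤ m`. -/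
theorem unip_subRep (hpN : p ∣ N) (hp2 : ¬ p ^ 2 ∣ N) {m : ℕ} (hpm : ¬ p ∣ m)
    (G : AddSubgroup (JZero N)) (hGst : ∀ σ : GQ, ∀ x ∈ G, σ • x ∈ G)
    (hGm : ∀ x ∈ G, m • x = 0) (τ : Gq p) (hτ : τ ∈ Iq p) (x : subRep G hGst) :
    (subRep G hGst).ρ (rq p τ) ((subRep G hGst).ρ (rq p τ) x) + x =
      (subRep G hGst).ρ (rq p τ) x + (subRep G hGst).ρ (rq p τ) x :=
  Subtype.ext (Fermat.Agent.MZ.HECKE.Inertia5.unip_local hpN hp2 hpm hτ (hGm _ (Subtype.prop x)))

/-- **`#G ≤ #(G^{I_p})²`** in `Ninv` form. -/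
theorem card_subRep_le (hpN : p ∣ N) (hp2 : ¬ p ^ 2 ∣ N) {m : ℕ} (hm : 0 < m) (hpm : ¬ p ∣ m)
    (G : AddSubgroup (JZero N)) (hGst : ∀ σ : GQ, ∀ x ∈ G, σ • x ∈ G)
    (hGm : ∀ x ∈ G, m • x = 0) (S : Finset Nat.Primes)
    (hmS : ∀ q : Nat.Primes, (q : ℕ) ∣ m → q ∈ S) (hNS : ∀ q : Nat.Primes, (q : ℕ) ∣ N → q ∈ S) :
    Nat.card (subRep G hGst) ≤
      Nat.card ↥(Ninv p (subRep G hGst) ⊥) ^ 2 := by
  haveI : Finite (subRep G hGst) := finite_subRep G hGst hm hGm
  refine card_le_sq_Ninv (subRep G hGst) S (isDiscrete_subRep G hGst hGm S hmS hNS) hpm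
    (fun x => Subtype.ext ?_) (unip_subRep hpN hp2 hpm G hGst hGm)
  rw [AddSubgroup.coe_nsmul]
  exact hGm _ (Subtype.prop x)

end

end Fermat.Agent.MZ.TOP.InertiaCount9
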