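/-
Programme MZ (S15), chapter TOP (helper9): **the local inputs of the duality trick for `M = subRep G`**.

`G ≤ JZero N` a `G_ℚ`-stable subgroup killed by `ℓ ^ r`, `ℓ ∤ N`, with the chain hypotheses of `OrdMain6`.

* `flat_subRep` : `Mq (subRep G) ℓ` has a finite flat model over `ℤ_ℓ` (sub-object of the Kummer module of
  `y = 0`, `KumUnit6.kumFlat_local`);
* `ordPeu_dual_subRep` : `OrdPeu ℓ (Mq (dualRep (subRep G)) ℓ) (annihLoc _ ℓ (B0 ℓ (ℓ^r) G))`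
  (`DualLoc3.ordPeu_dualRep`);
* `card_dual_le` : the inertia count at `p ∥ N`, `p ≠ ℓ`, for the dual; `card_le_mul_Ninv` :
  `#M ≤ #M^{I_p} * #M'^{I_p}` (hypothesis `hI` of `StepTypes8.card_sel_le_dual_types`).
-/
import Mathlib
import Fermat.Agent.MZ.ORDL.OrdPeuInst6
import Fermat.Agent.MZ.DUAL.DualGlob3
import Fermat.Agent.MZ.TOP.InertiaCount9

set_option autoImplicit false
set_option linter.unusedSectionVars false
set_option linter.style.longLine false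
set_option linter.style.haveILetI false

open AlgebraicCurve ModularCurve
open Fermat.Agent.PT.PRO.LevelCoh28 Fermat.Agent.PT.PRO.LevelCohRes28
open Fermat.Agent.PT.GLUE.Objects21
open Fermat.Agent.TW.DEF.Basic1
open Fermat.Agent.TW.LOC.Defs2 (Iq)
open Fermat.Agent.TW.FLAT.Points6 Fermat.Agent.TW.FLAT.FlatIntrinsic7 Fermat.Agent.TW.FLAT.LocalPoints6
open Fermat.Agent.FF.LEVEL.Transfer0
open Fermat.Agent.TW.FLAT.Ordinary7 (IsCycExp)
open Fermat.Agent.MZ.LOCL.OrdPeu4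
open Fermat.Agent.MZ.SEL.Defect8
open Fermat.Agent.MZ.ORDL.OrdPeuInst6 Fermat.Agent.MZ.ORDL.OrdMain6
open Fermat.Agent.MZ.ORDL.KumExt6 Fermat.Agent.MZ.ORDL.KumUnit6
open Fermat.Agent.MZ.DUAL.DualRep3 Fermat.Agent.MZ.DUAL.DualLoc3 Fermat.Agent.MZ.DUAL.DualGlob3
open Fermat.Agent.MZ.TOP.InertiaCount9

namespace Fermat.Agent.MZ.TOP.GrLocal9

noncomputable section

variable {N : ℕ} [NeZero N] {ℓ : ℕ} [Fact ℓ.Prime]

/-- **the local Galois module `G` has a finite flat model over `ℤ_ℓ`** (`ℓ ∤ N`). -/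
theorem flat_subRep (hℓN : ¬ ℓ ∣ N) {m : ℕ} [NeZero m] (G : AddSubgroup (JZero N))
    (hGst : ∀ σ : GQ, ∀ x ∈ G, σ • x ∈ G) (hGm : ∀ x ∈ G, m • x = 0) :
    HasFlatModel ℤ_[ℓ] (PadicAlgCl ℓ) (Gq ℓ) (Mq (subRep G hGst) ℓ)
      (fun τ b => (Mq (subRep G hGst) ℓ).ρ τ b) := by
  have hy : ∀ σ : GQ, σ • (m • (0 : JZero N)) = m • (0 : JZero N) := fun σ => by
    rw [smul_zero]
    exact Fermat.Agent.MP.HECKE.EsComm5.gal_smul_zero σ
  have htors : ∀ t : G, (t : JZero N) ∈ Submodule.torsionBy ℤ (JZero N) (m : ℤ) := fun t => by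
    rw [Submodule.mem_torsionBy_iff, natCast_zsmul]
    exact hGm _ t.2
  let incl : G →+ Submodule.torsionBy ℤ (JZero N) (m : ℤ) :=
    { toFun := fun t => ⟨(t : JZero N), htors t⟩
      map_zero' := rfl
      map_add' := fun _ _ => rfl }
  let ι : ↥G →+ KumMod N m := (AddMonoidHom.inr (ZMod m) _).comp incl
  have hι : Function.Injective ι := by
    intro a b hab
    have h2 : incl a = incl b := (Prod.ext_iff.1 hab).2
    exact Subtype.ext
      (congrArg (fun t : Submodule.torsionBy ℤ (JZero N) (m : ℤ) => (t : JZero N)) h2)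
  refine HasFlatModel.of_injective (fixedInFrac_padicInt ℓ)
    (kumFlat_local (ℓ := ℓ) hℓN (0 : JZero N) hy) ι hι fun σ e => ?_
  refine Prod.ext rfl (Subtype.ext ?_)
  show rq ℓ σ • ((e : ↥G) : JZero N) = _
  rw [kumAct_snd, Submodule.coe_add, coe_torsAct]
  show _ = rq ℓ σ • ((e : ↥G) : JZero N) + (((0 : ZMod m).val • kumCoc (0 : JZero N) hy (rq ℓ σ) :
    Submodule.torsionBy ℤ (JZero N) (m : ℤ)) : JZero N)
  rw [ZMod.val_zero, zero_smul, Submodule.coe_zero, add_zero]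

section Dual

variable (r : ℕ) (G : AddSubgroup (JZero N))
  (hℓN : ¬ ℓ ∣ N) (hr : 0 < r)
  (hGn : ∀ x ∈ G, ℓ ^ r • x = 0) (hGst : ∀ σ : GQ, ∀ x ∈ G, σ • x ∈ G)
  (F : ℕ → AddSubgroup (JZero N)) (k : ℕ) (hF0 : F 0 = ⊥) (hFk : F k = G)
  (hstep : ∀ i < k,
    (∀ τ ∈ Iq ℓ, ∀ x ∈ F (i + 1), rq ℓ τ • x - x ∈ F i) ∨
    ((∀ τ ∈ Iq ℓ, ∀ c : ℕ, IsCycExp (ℓ ^ r) τ c → ∀ x ∈ F (i + 1), rq ℓ τ • x - c • x ∈ F i) ∧
      ∀ x ∈ F (i + 1), ℓ • x ∈ F i))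

include hℓN hr hGn hF0 hFk hstep in
/-- **`OrdPeu` for the Cartier dual of `G`**, with `B0' = (G / B0)^*`. -/
theorem ordPeu_dual_subRep :
    OrdPeu ℓ (Mq (dualRep (subRep G hGst)) ℓ)
      (annihLoc (subRep G hGst) ℓ (B0 ℓ (ℓ ^ r) G hGst)) := by
  haveI : NeZero (ℓ ^ r) := ⟨pow_ne_zero r (Fact.out : ℓ.Prime).ne_zero⟩
  haveI : Finite (subRep G hGst) :=
    finite_subRep G hGst (pow_pos (Fact.out : ℓ.Prime).pos r) hGn
  refine ordPeu_dualRep (subRep G hGst) ℓ (flat_subRep hℓN G hGst hGn) (ℓ ^ r)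
    (fun b => Subtype.ext ?_) (B0 ℓ (ℓ ^ r) G hGst) (fun x hx τ hτ c hc => Subtype.ext ?_)
    (fun τ hτ b => ?_)
  · rw [AddSubgroup.coe_nsmul]
    exact hGn _ (Subtype.prop b)
  · rw [AddSubgroup.coe_nsmul]
    exact ((mem_B0_iff x).1 hx).2 τ hτ c hc
  · exact (ordPeu r G hℓN hr hGn hGst F k hF0 hFk hstep).et τ hτ b

end Dual

section Count

variable {p : ℕ} [Fact p.Prime]

/-- **the inertia count at `p` for the dual of `G`.** -/
theorem card_dual_le (hpN : p ∣ N) (hp2 : ¬ p ^ 2 ∣ N) {m : ℕ} (hm : 0 < m) (hpm : ¬ p ∣ m)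
    (G : AddSubgroup (JZero N)) (hGst : ∀ σ : GQ, ∀ x ∈ G, σ • x ∈ G)
    (hGm : ∀ x ∈ G, m • x = 0) (S : Finset Nat.Primes)
    (hmS : ∀ q : Nat.Primes, (q : ℕ) ∣ m → q ∈ S) (hNS : ∀ q : Nat.Primes, (q : ℕ) ∣ N → q ∈ S) :
    Nat.card (dualRep (subRep G hGst)) ≤
      Nat.card ↥(Ninv p (dualRep (subRep G hGst)) ⊥) ^ 2 := by
  haveI : Finite (subRep G hGst) := finite_subRep G hGst hm hGm
  haveI : Finite (dualRep (subRep G hGst)) := finite_dualRep _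
  have hkill : ∀ x : subRep G hGst, m • x = 0 := fun x => Subtype.ext (by
    rw [AddSubgroup.coe_nsmul]
    exact hGm _ (Subtype.prop x))
  have hdisc := isDiscrete_subRep G hGst hGm S hmS hNS
  refine card_le_sq_Ninv (dualRep (subRep G hGst)) S
    (isDiscrete_dualRep (subRep G hGst) S hm.ne' hkill hdisc hmS) hpm
    (nsmul_eq_zero_dualRep (subRep G hGst) hkill) fun τ hτ f => ?_
  refine unip_of_pairing (pairGlob (subRep G hGst)) (pairGlob_add_left _) (pairGlob_add_right _)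
    (pairGlob_inj _) (rq p τ) (fun f' x => ?_) (unip_subRep hpN hp2 hpm G hGst hGm τ hτ) f
  rw [pairGlob_act]
  refine Units.ext ?_
  exact inertia_fixes_root hpm hτ (toMul_pow_eq_one (subRep G hGst) hkill f' x)

/-- **`#M ≤ #M^{I_p} * #M'^{I_p}`** for `M = subRep G`, `M' = dualRep M`. -/
theorem card_le_mul_Ninv (hpN : p ∣ N) (hp2 : ¬ p ^ 2 ∣ N) {m : ℕ} (hm : 0 < m) (hpm : ¬ p ∣ m)
    (G : AddSubgroup (JZero N)) (hGst : ∀ σ : GQ, ∀ x ∈ G, σ • x ∈ G)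
    (hGm : ∀ x ∈ G, m • x = 0) (S : Finset Nat.Primes)
    (hmS : ∀ q : Nat.Primes, (q : ℕ) ∣ m → q ∈ S) (hNS : ∀ q : Nat.Primes, (q : ℕ) ∣ N → q ∈ S) :
    Nat.card (subRep G hGst) ≤
      Nat.card ↥(Ninv p (subRep G hGst) ⊥) * Nat.card ↥(Ninv p (dualRep (subRep G hGst)) ⊥) := by
  haveI : Finite (subRep G hGst) := finite_subRep G hGst hm hGm
  have h1 := card_subRep_le hpN hp2 hm hpm G hGst hGm S hmS hNS
  have h2 := card_dual_le hpN hp2 hm hpm G hGst hGm S hmS hNS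
  rw [card_dualRep] at h2
  set a := Nat.card ↥(Ninv p (subRep G hGst) ⊥)
  set b := Nat.card ↥(Ninv p (dualRep (subRep G hGst)) ⊥)
  set n := Nat.card (subRep G hGst)
  have h3 : n ^ 2 ≤ (a * b) ^ 2 := by
    calc n ^ 2 = n * n := sq n
      _ ≤ a ^ 2 * b ^ 2 := Nat.mul_le_mul h1 h2
      _ = (a * b) ^ 2 := (mul_pow a b 2).symm
  exact (Nat.pow_le_pow_iff_left (by norm_num)).mp h3

end Count

end

end Fermat.Agent.MZ.TOP.GrLocal9
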