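/-
Programme MZ (S15), chapter TOP (helper9): **(F) from a uniform bound for the Selmer groups of the
`G_r = G_P[l^r]`**.

`p` a prime level, `R = R p D` the Hecke ring (`D ≠ 0` the excluded primes), `P` a prime ideal of `R`
containing `l` (`l ≠ p` prime), `S = {l, p}`.  For `r > 0`: `M_r := subRep (GPa P (l^r))`,
`B0_r :=` its cyclotomic part at `l`, `Sel_r := Sel S M_r (Lstd ℓS B0_r)` (ordinary + peu ramifié at `l`,
unramified at `p`).

* `JQsub p D` : `J₀(p)(ℚ)` as an `R`-submodule of `JZero p`; f.g. over `ℤ` (Mordell–Weil, `MordellWeil9`);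
* **`rank_zero_of_sel_bound`** : if (P1) holds at `p` (`PushDown7.InertDiv p l p`), the chains of CONST exist
  (automatic: `GrChain9.exists_chain_GP`, from `l ∈ P` and `T_q - (q+1) ∈ P`) and `#Sel_r ≤ C` for all
  `r > 0`, then every `z ∈ J₀(p)(ℚ)` is killed by `n • t` for some `t ∉ P`, `n > 0`  — statement (F).
-/
import Mathlib
import Fermat.Agent.MZ.SEL.RankZeroGlue8
import Fermat.Agent.MZ.SEL.LocalCond8
import Fermat.Agent.MZ.ORDL.OrdPeuInst6
import Fermat.Agent.MZ.LOCP.PushDown7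
import Fermat.Agent.MZ.CONST.GrChain9
import Fermat.Agent.MW.POS.MordellWeil9

set_option autoImplicit false
set_option linter.unusedSectionVars false
set_option linter.style.longLine false
set_option linter.style.haveILetI false

open AlgebraicCurve ModularCurve
open Fermat.Agent.PT.PRO.LevelCoh28 Fermat.Agent.PT.PRO.LevelCohRes28
open Fermat.Agent.PT.GLUE.Objects21
open Fermat.Agent.TW.DEF.Basic1
open Fermat.Agent.TW.LOC.Defs2 (Iq H1ur)
open Fermat.Agent.MZ.LOCL.OrdPeu4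
open Fermat.Agent.MZ.HECKE.RingD5 Fermat.Agent.MZ.HECKE.IdemD5
open Fermat.Agent.MZ.ORDL.OrdPeuInst6
open Fermat.Agent.MZ.DESC.Kummer7
open Fermat.Agent.MZ.SEL.LocalCond8
open Fermat.Agent.MZ.CONST.GrChain9
open Fermat.Agent.MP.HECKE.EsComm5

namespace Fermat.Agent.MZ.TOP.RankZero9

noncomputable section

variable {p : ℕ} [NeZero p] {D : ℕ}

/-- `J₀(p)(ℚ)` as a submodule over the Hecke ring. -/
def JQsub (p D : ℕ) [NeZero p] : Submodule (R p D) (JZero p) where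
  carrier := {x | ∀ σ : GQ, σ • x = x}
  add_mem' := fun {a b} ha hb σ => by rw [gal_smul_add, ha σ, hb σ]
  zero_mem' := fun σ => gal_smul_zero σ
  smul_mem' := fun t x hx σ => by rw [← smul_galois, hx σ]

/-- the identification with `Kummer7.JQ`. -/
def toJQ (p D : ℕ) [NeZero p] : ↥(JQsub p D) →+ ↥(JQ p) where
  toFun x := ⟨(x : JZero p), x.2⟩
  map_zero' := rfl
  map_add' _ _ := rfl

theorem coe_toJQ (x : ↥(JQsub p D)) : ((toJQ p D x : ↥(JQ p)) : JZero p) = (x : JZero p) := rfl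

theorem toJQ_surjective : Function.Surjective (toJQ p D) := fun y => ⟨⟨(y : JZero p), y.2⟩, rfl⟩

/-- the inverse direction. -/
def ofJQ (p D : ℕ) [NeZero p] : ↥(JQ p) →+ ↥(JQsub p D) where
  toFun x := ⟨(x : JZero p), x.2⟩
  map_zero' := rfl
  map_add' _ _ := rfl

theorem ofJQ_surjective : Function.Surjective (ofJQ p D) := fun y => ⟨⟨(y : JZero p), y.2⟩, rfl⟩

/-- **Mordell–Weil**: `J₀(p)(ℚ)` is finitely generated. -/
instance finite_JQsub : Module.Finite ℤ ↥(JQsub p D) := by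
  rw [Module.Finite.iff_addGroup_fg]
  haveI : AddGroup.FG ↥(JQ p) := Fermat.Agent.MW.POS.MordellWeil9.mordell_weil p
  exact AddGroup.fg_of_surjective (ofJQ_surjective (p := p) (D := D))

/-- the action of a Hecke operator as an additive endomorphism. -/
def heckeHom (t : R p D) : JZero p →+ JZero p := (toEnd p D t).toAddMonoidHom

theorem heckeHom_apply (t : R p D) (x : JZero p) : heckeHom t x = t • x := rfl

theorem heckeHom_equivariant (t : R p D) (σ : GQ) (y : JZero p) :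
    heckeHom t (σ • y) = σ • heckeHom t y := smul_galois t σ y

/-! ### the set `S = {l, p}` -/

section Primes

variable (l p : ℕ) [Fact l.Prime] [Fact p.Prime]

/-- a prime as an element of `Nat.Primes`. -/
abbrev prm (l : ℕ) [Fact l.Prime] : Nat.Primes := ⟨l, Fact.out⟩

/-- `S = {l, p}`. -/
abbrev Sset : Finset Nat.Primes := {prm l, prm p}

/-- `l ∈ S`. -/
abbrev ℓS : ↥(Sset l p) := ⟨prm l, Finset.mem_insert_self _ _⟩

/-- `p ∈ S`. -/
abbrev pS : ↥(Sset l p) := ⟨prm p, Finset.mem_insert_of_mem (Finset.mem_singleton_self _)⟩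

theorem pS_ne_ℓS (hlp : l ≠ p) : pS l p ≠ ℓS l p := fun h =>
  hlp (congrArg (fun q : ↥(Sset l p) => ((q : Nat.Primes) : ℕ)) h).symm

theorem eq_ℓS_or_pS (q : ↥(Sset l p)) : q = ℓS l p ∨ q = pS l p := by
  rcases Finset.mem_insert.mp q.2 with h | h
  · exact Or.inl (Subtype.ext h)
  · exact Or.inr (Subtype.ext (Finset.mem_singleton.mp h))

theorem mem_Sset_of_dvd_pow (r : ℕ) (q : Nat.Primes) (h : (q : ℕ) ∣ l ^ r) : q ∈ Sset l p := by
  have h1 : (q : ℕ) = l :=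
    (Nat.prime_dvd_prime_iff_eq q.2 (Fact.out : l.Prime)).mp (q.2.dvd_of_dvd_pow h)
  exact Finset.mem_insert.mpr (Or.inl (Subtype.ext h1))

theorem mem_Sset_of_dvd (q : Nat.Primes) (h : (q : ℕ) ∣ p) : q ∈ Sset l p := by
  have h1 : (q : ℕ) = p := (Nat.prime_dvd_prime_iff_eq q.2 (Fact.out : p.Prime)).mp h
  exact Finset.mem_insert_of_mem (Finset.mem_singleton.mpr (Subtype.ext h1))

end Primes

/-! ### (F) from bounded Selmer groups -/

section Main

variable [Fact p.Prime] {l : ℕ} [Fact l.Prime]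

/-- the Galois module `G_r = G_P[l^r]`. -/
abbrev Mr (P : Ideal (R p D)) (l r : ℕ) : Rep.{0} ℤ GQ :=
  subRep (GPa P (l ^ r)) (stable_GPa P (l ^ r))

/-- its cyclotomic part at `l`. -/
abbrev B0r (P : Ideal (R p D)) (l : ℕ) [Fact l.Prime] (r : ℕ) : AddSubgroup (Mq (Mr P l r) l) :=
  B0 l (l ^ r) (GPa P (l ^ r)) (stable_GPa P (l ^ r))

theorem GPa_killed (P : Ideal (R p D)) (m : ℕ) : ∀ x ∈ GPa P m, m • x = 0 := fun _ hx => hx.1

/-- the hypothesis `hstep` of ORDL from the chain of CONST. -/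
theorem exists_ordl_chain (hD : D ≠ 0) (P : Ideal (R p D)) (hlP : ((l : ℕ) : R p D) ∈ P)
    (hEis : ∀ (q : Nat.Primes) (hq : ¬ (q : ℕ) ∣ p * D),
      Tq p D q hq - (((q : ℕ) : R p D) + 1) ∈ P) (r : ℕ) (hr : 0 < r) :
    ∃ (k : ℕ) (F : ℕ → AddSubgroup (JZero p)), F 0 = ⊥ ∧ F k = GPa P (l ^ r) ∧
      ∀ i < k,
        (∀ τ ∈ Iq l, ∀ x ∈ F (i + 1), rq l τ • x - x ∈ F i) ∨
        ((∀ τ ∈ Iq l, ∀ c : ℕ, Fermat.Agent.TW.FLAT.Ordinary7.IsCycExp (l ^ r) τ c →
            ∀ x ∈ F (i + 1), rq l τ • x - c • x ∈ F i) ∧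
          ∀ x ∈ F (i + 1), l • x ∈ F i) := by
  obtain ⟨k, F, hF0, hFk, -, -, hsteps⟩ := exists_chain_GP P l hD hlP hEis r
  refine ⟨k, F, hF0, hFk, hstep_of_global (chiZ l)
    (fun σ ζ hζ => by
      rw [chiZ_val]
      exact Fermat.Agent.S14.Fields.apply_eq_pow_cycloExp l σ hζ) r hr F k fun i hi => ?_⟩
  obtain ⟨hidx, hact⟩ := hsteps i hi
  refine ⟨nsmul_mem_of_relIndex_eq hidx, ?_⟩
  rcases hact with h | h
  · exact Or.inl h
  · right
    intro σ x hx
    rw [chiZ_val]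
    exact h σ x hx

/-- **(F) from a uniform bound for the Selmer groups.** -/
theorem rank_zero_of_sel_bound (hD : D ≠ 0) (P : Ideal (R p D)) [P.IsPrime] (hlp : l ≠ p)
    (hlP : ((l : ℕ) : R p D) ∈ P)
    (hEis : ∀ (q : Nat.Primes) (hq : ¬ (q : ℕ) ∣ p * D),
      Tq p D q hq - (((q : ℕ) : R p D) + 1) ∈ P)
    (hInert : Fermat.Agent.MZ.LOCP.PushDown7.InertDiv p l p) (C : ℕ)
    (hSel : ∀ r : ℕ, 0 < r →
      Finite ↥(Sel (Sset l p) (Mr P l r) (Lstd (ℓS l p) (B0r P l r))) ∧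
        Nat.card ↥(Sel (Sset l p) (Mr P l r) (Lstd (ℓS l p) (B0r P l r))) ≤ C) :
    ∀ z : ↥(JQsub p D), ∃ t : R p D, t ∉ P ∧ ∃ n : ℕ, 0 < n ∧ n • (t • z) = 0 := by
  classical
  have hl : l.Prime := Fact.out
  have hpp : p.Prime := Fact.out
  have hlN : ¬ l ∣ p := fun h => hlp ((Nat.prime_dvd_prime_iff_eq hl hpp).mp h)
  obtain ⟨m₀, hm₀, Hdiv⟩ := Fermat.Agent.MZ.LOCP.PushDown7.inertDiv_rational hInert
  -- the idempotents
  have hidem := fun r : ℕ =>
    haveI : NeZero (l ^ (r + 1)) := ⟨pow_ne_zero _ hl.ne_zero⟩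
    exists_idem P (l ^ (r + 1))
  choose ε s k hε hs hεG hεid hs0 hk hsk using hidem
  have hεP : ∀ r, ε r ∉ P := fun r => eps_not_mem (Ideal.IsPrime.ne_top inferInstance) (hε r)
  -- the data at level `r + 1`
  have hm : ∀ r : ℕ, 0 < l ^ (r + 1) := fun r => pow_pos hl.pos _
  have hmS : ∀ r : ℕ, ∀ q : Nat.Primes, (q : ℕ) ∣ l ^ (r + 1) → q ∈ Sset l p := fun r =>
    mem_Sset_of_dvd_pow l p (r + 1)
  have hNS : ∀ q : Nat.Primes, (q : ℕ) ∣ p → q ∈ Sset l p := mem_Sset_of_dvd l p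
  let κ' : ∀ r : ℕ, ↥(JQ p) →+ HS1 (Sset l p) (Mr P l (r + 1)) := fun r =>
    kappaG (GPa P (l ^ (r + 1))) (stable_GPa P (l ^ (r + 1))) (Sset l p) (hm r) (hmS r) hNS
      (heckeHom (ε r)) (heckeHom_equivariant (ε r)) (fun x hx => hεG r x hx)
  let κ : ∀ r : ℕ, ↥(JQsub p D) →+ HS1 (Sset l p) (Mr P l (r + 1)) := fun r =>
    (κ' r).comp (toJQ p D)
  let T : ∀ r : ℕ, AddSubgroup (HS1 (Sset l p) (Mr P l (r + 1))) := fun r =>
    (Sel (Sset l p) (Mr P l (r + 1)) (Lstd (ℓS l p) (B0r P l (r + 1)))).toAddSubgroup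
  refine Fermat.Agent.MZ.SEL.RankZeroGlue8.rank_zero_of_selmer P l hl hlP C m₀ hm₀ ε hεP κ T
    (fun r => (hSel (r + 1) (Nat.succ_pos r)).1) (fun r => (hSel (r + 1) (Nat.succ_pos r)).2)
    (fun r z => ?_) (fun r z hz => ?_)
  · -- the Kummer classes of `m₀ • z` are Selmer classes
    show κ' r (toJQ p D (m₀ • z)) ∈ Sel (Sset l p) (Mr P l (r + 1)) (Lstd (ℓS l p) (B0r P l (r + 1)))
    rw [mem_sel_Lstd_iff]
    refine ⟨?_, fun q hq => ?_⟩
    · obtain ⟨k', F, hF0, hFk, hstep⟩ := exists_ordl_chain hD P hlP hEis (r + 1) (Nat.succ_pos r)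
      exact kummer_mem_Lord (r + 1) (GPa P (l ^ (r + 1))) hlN (Nat.succ_pos r)
        (GPa_killed P (l ^ (r + 1))) (stable_GPa P (l ^ (r + 1))) F k' hF0 hFk hstep (Sset l p)
        (hm r) (hmS r) hNS (heckeHom (ε r)) (heckeHom_equivariant (ε r))
        (fun x hx => hεG r x hx) (toJQ p D (m₀ • z))
    · have hq' : q = pS l p := (eq_ℓS_or_pS l p q).resolve_left hq
      subst hq'
      obtain ⟨y, hy, hfix⟩ := Hdiv (r + 1) (toJQ p D z)
      exact resq1_kappaG_mem_H1ur (GPa P (l ^ (r + 1))) (stable_GPa P (l ^ (r + 1))) (Sset l p)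
        (hm r) (hmS r) hNS (heckeHom (ε r)) (heckeHom_equivariant (ε r))
        (fun x hx => hεG r x hx) p (toJQ p D (m₀ • z)) y
        (by rw [hy]; rfl) hfix
  · -- Kummer injectivity
    obtain ⟨w, hw⟩ := kappaG_eq_zero (GPa P (l ^ (r + 1))) (stable_GPa P (l ^ (r + 1)))
      (Sset l p) (hm r) (hmS r) hNS (heckeHom (ε r)) (heckeHom_equivariant (ε r))
      (fun x hx => hεG r x hx) (GPa_killed P (l ^ (r + 1))) (toJQ p D z) hz
    refine ⟨l • ofJQ p D w, Subtype.ext ?_⟩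
    show ε r • (z : JZero p) = ((l ^ r • (l • ofJQ p D w) : ↥(JQsub p D)) : JZero p)
    rw [Submodule.coe_smul_of_tower, Submodule.coe_smul_of_tower, smul_smul, ← pow_succ]
    exact hw

end Main

end

end Fermat.Agent.MZ.TOP.RankZero9
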