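/-
Programme MZ (S15), chapter TOP (helper9): **the bound for `H⁰(ℚ, G)`**, uniform in the finite Galois-stable
subgroup `G ⊆ J₀(N)(ℚ̄)_tors`: the rational torsion of `J₀(N)` is finite (Mordell–Weil, `MordellWeil9`).

* `finite_torsion_JQ` : `J₀(N)(ℚ)_tors` is finite;
* **`exists_card_invariants_le`** : `∃ B, ∀ G (killed by some m > 0), #(subRep G)^{G_ℚ} ≤ B`.
-/
import Mathlib
import Fermat.Agent.MZ.ORDL.OrdPeuInst6
import Fermat.Agent.MW.POS.MordellWeil9

set_option autoImplicit false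
set_option linter.unusedSectionVars false
set_option linter.style.longLine false
set_option linter.style.haveILetI false

open AlgebraicCurve ModularCurve
open Fermat.Agent.TW.DEF.Basic1
open Fermat.Agent.MZ.ORDL.OrdPeuInst6
open Fermat.Agent.MZ.DESC.Kummer7

namespace Fermat.Agent.MZ.TOP.TorsBound9

noncomputable section

variable (N : ℕ) [NeZero N]

/-- **the rational torsion subgroup of `J₀(N)` is finite.** -/
theorem finite_torsion_JQ : Finite ↥(Submodule.torsion ℤ ↥(JQ N)) := by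
  haveI : AddGroup.FG ↥(JQ N) := Fermat.Agent.MW.POS.MordellWeil9.mordell_weil N
  haveI : Module.Finite ℤ ↥(JQ N) := Module.Finite.iff_addGroup_fg.mpr inferInstance
  haveI : IsNoetherian ℤ ↥(JQ N) := isNoetherian_of_isNoetherianRing_of_finite ℤ _
  haveI : Module.Finite ℤ ↥(Submodule.torsion ℤ ↥(JQ N)) := Module.IsNoetherian.finite ℤ _
  exact Module.finite_of_fg_torsion _ (Submodule.torsion_isTorsion (R := ℤ) (M := ↥(JQ N)))

/-- **`#H⁰(ℚ, G)` is bounded independently of `G`.** -/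
theorem exists_card_invariants_le :
    ∃ B : ℕ, ∀ (G : AddSubgroup (JZero N)) (hGst : ∀ σ : GQ, ∀ x ∈ G, σ • x ∈ G) (m : ℕ),
      0 < m → (∀ x ∈ G, m • x = 0) → Nat.card ↥(subRep G hGst).ρ.invariants ≤ B := by
  haveI := finite_torsion_JQ N
  refine ⟨Nat.card ↥(Submodule.torsion ℤ ↥(JQ N)), fun G hGst m hm hGm => ?_⟩
  have hfix : ∀ x : ↥(subRep G hGst).ρ.invariants, ∀ σ : GQ,
      σ • (((x : subRep G hGst) : ↥G) : JZero N) = (((x : subRep G hGst) : ↥G) : JZero N) := by
    intro x σ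
    have h1 := (Representation.mem_invariants (subRep G hGst).ρ (x : subRep G hGst)).1 x.2 σ
    exact congrArg (fun y : ↥G => (y : JZero N)) h1
  let f : ↥(subRep G hGst).ρ.invariants → ↥(Submodule.torsion ℤ ↥(JQ N)) := fun x =>
    ⟨⟨(((x : subRep G hGst) : ↥G) : JZero N), fun σ => hfix x σ⟩, by
      rw [Submodule.mem_torsion_iff]
      refine ⟨⟨(m : ℤ), mem_nonZeroDivisors_of_ne_zero (Int.natCast_ne_zero.mpr hm.ne')⟩, ?_⟩
      refine Subtype.ext ?_
      show (((m : ℤ) • (⟨(((x : subRep G hGst) : ↥G) : JZero N), fun σ => hfix x σ⟩ : ↥(JQ N)) :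
        ↥(JQ N)) : JZero N) = 0
      rw [AddSubgroup.coe_zsmul, natCast_zsmul]
      exact hGm _ (Subtype.prop (x : subRep G hGst))⟩
  refine Nat.card_le_card_of_injective f fun a b hab => ?_
  have h1 : ((f a : ↥(JQ N)) : JZero N) = ((f b : ↥(JQ N)) : JZero N) := by rw [hab]
  exact Subtype.ext (Subtype.ext h1)

end

end Fermat.Agent.MZ.TOP.TorsBound9
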