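/-
Programme MZ (S15, Mazur), chapter TOP/SEL (helper8): **the uniform bound of the Selmer groups of the
`G_r = G_P[l^r]`** — the input `SelBoundProp` of `MZ/TOP/S15Assemble9` (= the hypothesis `hSel` of
`MZ/TOP/RankZero9.rank_zero_of_sel_bound`).

`p` a prime level, `R = R p D` (`D ≠ 0`, `l ∣ D`), `P` an ideal containing `l ≠ p` and all
`T_q - (q + 1)`.  For every `r > 0`

  `#Sel(G_r, Lstd) ≤ #G_r^{G_ℚ} * #(G_r^*)^{G_ℚ} ≤ B₁ * B₂`

by `SEL/SelDual8.card_sel_le_perfPair` (duality trick) with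
* the chain of CONST (`GrChain9.exists_chain_GP`) and its `TypeData` (`SEL/TypeInst8`);
* the Cartier pairing of `DUAL/DualGlob3` as a `PerfPair`;
* `OrdPeu` for the dual (`TOP/GrLocal9.ordPeu_dual_subRep`), the inertia count at `p`
  (`TOP/GrLocal9.card_le_mul_Ninv`);
* `B₁` = `TOP/TorsBound9.exists_card_invariants_le` (rational torsion, Mordell–Weil),
  `B₂` = `HECKE/EisDual5.exists_card_invariants_dual_le` (Eisenstein characters).
-/
import Mathlib
import Fermat.Agent.MZ.SEL.TypeInst8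
import Fermat.Agent.MZ.SEL.SelDual8
import Fermat.Agent.MZ.TOP.RankZero9
import Fermat.Agent.MZ.TOP.GrLocal9
import Fermat.Agent.MZ.TOP.TorsBound9
import Fermat.Agent.MZ.HECKE.EisDual5

set_option autoImplicit false
set_option linter.unusedSectionVars false
set_option linter.style.haveILetI false
set_option linter.style.longLine false

noncomputable section

open AlgebraicCurve ModularCurve
open Fermat.Agent.PT.PRO.LevelCoh28 Fermat.Agent.PT.PRO.LevelCohRes28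
open Fermat.Agent.PT.GLUE.Objects21
open Fermat.Agent.TW.DEF.Basic1
open Fermat.Agent.TW.LOC.Defs2 (Iq H1ur)
open Fermat.Agent.MZ.LOCL.OrdPeu4
open Fermat.Agent.MZ.HECKE.RingD5 Fermat.Agent.MZ.HECKE.IdemD5
open Fermat.Agent.MZ.ORDL.OrdPeuInst6
open Fermat.Agent.MZ.DUAL.DualRep3 Fermat.Agent.MZ.DUAL.DualLoc3 Fermat.Agent.MZ.DUAL.DualGlob3
open Fermat.Agent.MZ.SEL.Defect8
open Fermat.Agent.MZ.SEL.ChainOfSub8 Fermat.Agent.MZ.SEL.SubChainOf8 Fermat.Agent.MZ.SEL.StepTypes8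
open Fermat.Agent.MZ.SEL.DualChain8 Fermat.Agent.MZ.SEL.LocalCond8 Fermat.Agent.MZ.SEL.SelDual8
open Fermat.Agent.MZ.SEL.TypeInst8
open Fermat.Agent.MZ.CONST.GrChain9
open Fermat.Agent.MZ.TOP.RankZero9 Fermat.Agent.MZ.TOP.GrLocal9

namespace Fermat.Agent.MZ.TOP.SelBoundGr8

local notation "Qbar" => AlgebraicClosure ℚ

/-- the Cartier pairing of `DUAL/DualGlob3` as a `PerfPair`. -/
def perfPairGlob (M : Rep.{0} ℤ GQ) : PerfPair M (dualRep M) where
  pair := pairGlob M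
  add_left := pairGlob_add_left M
  add_right := pairGlob_add_right M
  inj := pairGlob_inj M
  surj := pairGlob_surj M
  act := val_pairGlob_act M

/-- the annihilator for `perfPairGlob` is `DualLoc3.annihLoc`. -/
theorem annihAdd_perfPairGlob (M : Rep.{0} ℤ GQ) (q : ℕ) [Fact q.Prime]
    (B0 : AddSubgroup (Mq M q)) :
    (perfPairGlob M).annihAdd B0 = annihLoc M q B0 := by
  ext f
  exact (mem_annihLoc_iff_pairGlob M q B0 f).symm

variable {p : ℕ} [NeZero p] {D : ℕ} [Fact p.Prime] {l : ℕ} [Fact l.Prime]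

/-- **the Selmer bound for one `r`.** -/
theorem card_sel_Mr_le (hD : D ≠ 0) (P : Ideal (R p D)) (hlp : l ≠ p)
    (hlP : ((l : ℕ) : R p D) ∈ P)
    (hEis : ∀ (q : Nat.Primes) (hq : ¬ (q : ℕ) ∣ p * D),
      Tq p D q hq - (((q : ℕ) : R p D) + 1) ∈ P) (r : ℕ) (hr : 0 < r) :
    Finite ↥(Sel (Sset l p) (Mr P l r) (Lstd (ℓS l p) (B0r P l r))) ∧
      Nat.card ↥(Sel (Sset l p) (Mr P l r) (Lstd (ℓS l p) (B0r P l r))) ≤
        Nat.card ↥(Mr P l r).ρ.invariants * Nat.card ↥(dualRep (Mr P l r)).ρ.invariants := by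
  classical
  have hl : l.Prime := Fact.out
  have hpp : p.Prime := Fact.out
  have hlN : ¬ l ∣ p := fun h => hlp ((Nat.prime_dvd_prime_iff_eq hl hpp).mp h)
  have hm : 0 < l ^ r := pow_pos hl.pos r
  have hGm : ∀ x ∈ GPa P (l ^ r), l ^ r • x = 0 := GPa_killed P (l ^ r)
  have hGst : ∀ σ : GQ, ∀ x ∈ GPa P (l ^ r), σ • x ∈ GPa P (l ^ r) := stable_GPa P (l ^ r)
  have hmS : ∀ q : Nat.Primes, (q : ℕ) ∣ l ^ r → q ∈ Sset l p := mem_Sset_of_dvd_pow l p r
  have hNS : ∀ q : Nat.Primes, (q : ℕ) ∣ p → q ∈ Sset l p := mem_Sset_of_dvd l p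
  haveI : Finite (Mr P l r) := finite_subRep (GPa P (l ^ r)) hGst hm hGm
  have hkill : ∀ x : Mr P l r, l ^ r • x = 0 := fun x => Subtype.ext (by
    rw [AddSubgroup.coe_nsmul]
    exact hGm _ (Subtype.prop x))
  -- the chain and its type data
  obtain ⟨m, F, hF0, hFm, hmono, hst, hsteps⟩ := exists_chain_GP P l hD hlP hEis r
  have T := typeData_of_chain (ℓS l p) r hr (GPa P (l ^ r)) hlN hGm hGst F m hF0 hFm hmono hst
    hsteps
  -- `OrdPeu` for the dual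
  obtain ⟨k', F', hF0', hFk', hstep'⟩ := exists_ordl_chain hD P hlP hEis r hr
  have hOrd' : OrdPeu l (Mq (dualRep (Mr P l r)) l)
      (B0dual (ℓS l p) (perfPairGlob (Mr P l r)) (B0r P l r)) := by
    have h := ordPeu_dual_subRep r (GPa P (l ^ r)) hlN hr hGm hGst F' k' hF0' hFk' hstep'
    have he : B0dual (ℓS l p) (perfPairGlob (Mr P l r)) (B0r P l r) =
        annihLoc (Mr P l r) l (B0r P l r) := annihAdd_perfPairGlob (Mr P l r) l (B0r P l r)
    rw [he]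
    exact h
  -- discreteness
  have hdisc : IsDiscrete (levelS (Sset l p)).sets (Mr P l r) :=
    isDiscrete_subRep (GPa P (l ^ r)) hGst hGm (Sset l p) hmS hNS
  have hdisc' : IsDiscrete (levelS (Sset l p)).sets (dualRep (Mr P l r)) :=
    isDiscrete_dualRep (Mr P l r) (Sset l p) hm.ne' hkill hdisc hmS
  -- the inertia count at `p`
  have hp2 : ¬ p ^ 2 ∣ p := fun h => by
    have h1 : p ^ 2 ≤ p := Nat.le_of_dvd hpp.pos h
    have h2 : p * 2 ≤ p ^ 2 := by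
      rw [sq]
      exact Nat.mul_le_mul_left p hpp.two_le
    have := hpp.pos
    omega
  have hpm : ¬ p ∣ l ^ r := fun h =>
    hlp ((Nat.prime_dvd_prime_iff_eq hpp hl).mp (hpp.dvd_of_dvd_pow h)).symm
  have hI := card_le_mul_Ninv (p := p) (dvd_refl p) hp2 hm hpm (GPa P (l ^ r)) hGst hGm
    (Sset l p) hmS hNS
  exact card_sel_le_perfPair (ℓS l p) (pS l p) (perfPairGlob (Mr P l r))
    (subChainOf (hGst := hGst) F hF0 hFm.ge hmono hst) (B0r P l r) (cExp l r) hdisc hdisc'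
    (pS_ne_ℓS l p hlp) (eq_ℓS_or_pS l p) (l ^ r) hkill (dvd_pow_self l hr.ne')
    (cExp_spec l r) (fun h2 => exists_cExp_not_modEq hr h2) T hOrd' hI

/-- **the uniform bound of the Selmer groups of the `G_P[l^r]`** (`= S15Assemble9.SelBoundProp`). -/
theorem sel_bound (hD : D ≠ 0) (hlD : l ∣ D) (P : Ideal (R p D)) (hlp : l ≠ p)
    (hlP : ((l : ℕ) : R p D) ∈ P)
    (hEis : ∀ (q : Nat.Primes) (hq : ¬ (q : ℕ) ∣ p * D),
      Tq p D q hq - (((q : ℕ) : R p D) + 1) ∈ P) :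
    ∃ C : ℕ, ∀ r : ℕ, 0 < r →
      Finite ↥(Sel (Sset l p) (Mr P l r) (Lstd (ℓS l p) (B0r P l r))) ∧
        Nat.card ↥(Sel (Sset l p) (Mr P l r) (Lstd (ℓS l p) (B0r P l r))) ≤ C := by
  have hl : l.Prime := Fact.out
  obtain ⟨B₁, hB₁⟩ := Fermat.Agent.MZ.TOP.TorsBound9.exists_card_invariants_le (N := p)
  obtain ⟨B₂, hB₂⟩ := Fermat.Agent.MZ.HECKE.EisDual5.exists_card_invariants_dual_le p D hD
  refine ⟨B₁ * B₂, fun r hr => ?_⟩
  obtain ⟨hfin, hle⟩ := card_sel_Mr_le hD P hlp hlP hEis r hr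
  refine ⟨hfin, hle.trans (Nat.mul_le_mul ?_ ?_)⟩
  · exact hB₁ (GPa P (l ^ r)) (stable_GPa P (l ^ r)) (l ^ r) (pow_pos hl.pos r)
      (GPa_killed P (l ^ r))
  · exact hB₂ l hl hlD r P (stable_GPa P (l ^ r))

end Fermat.Agent.MZ.TOP.SelBoundGr8
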