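/-
Programme MZ (S15), chapter TOP (helper9): **the inputs of `S15Assemble9.s15_of_inputs`, as they land (2).**

* `selBoundProp : SelBoundProp` — the uniform Selmer bound, helper8's `SelBoundGr8.sel_bound`.
-/
import Mathlib
import Fermat.Agent.MZ.TOP.S15Inputs9
import Fermat.Agent.MZ.TOP.SelBoundGr8

set_option autoImplicit false

namespace Fermat.Agent.MZ.TOP.S15InputsB9

open Fermat.Agent.MZ.TOP.S15Assemble9

/-- **(SEL)**: the Selmer groups of the `G_P[l^r]` are uniformly bounded. -/
theorem selBoundProp : SelBoundProp := fun hD hlD P hlp hlP hEis =>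
  Fermat.Agent.MZ.TOP.SelBoundGr8.sel_bound hD hlD P hlp hlP hEis

end Fermat.Agent.MZ.TOP.S15InputsB9
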