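/-
Programme MZ (S15, Mazur's key step), chapter TOP (helper9): **the final wiring.**

The four inputs of `S15Assemble9.s15_of_inputs`:
* `BridgeFinal4.moduliBridge` (MOD-E, helper4 + helper1 + helper2 + helper3 + helper5 + lead),
* `S15Inputs9.redCommProp` (K1, helper1),
* `inertDivProp` (P1, LOCP-GEO, helper6 + helper7; `InertDivFinal7.inertDiv_prime`),
* `S15InputsB9.selBoundProp` (SEL, helper8 + helper3 + helper5 + helper6).
-/
import Mathlib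
import Fermat.Agent.MZ.TOP.S15Assemble9
import Fermat.Agent.MZ.TOP.S15Inputs9
import Fermat.Agent.MZ.TOP.S15InputsB9
import Fermat.Agent.MZ.MOD.BridgeFinal4
import Fermat.Agent.MZ.LOCP.InertDivFinal7

set_option autoImplicit false

open WeierstrassCurve WeierstrassCurve.Affine

namespace Fermat.Agent.MZ.TOP.S15Final9

open Fermat.Agent.MZ.TOP.S15Assemble9

/-- **(P1)**: divisibility of the inertia-fixed points of `J₀(p)`. -/
theorem inertDivProp : InertDivProp := fun p l _ _ hp hl hlp =>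
  Fermat.Agent.MZ.LOCP.InertDivFinal7.inertDiv_prime
    (by
      rintro rfl
      exact hp (by simp)) hl hlp

/-- **Mazur's key step (the statement of S15).** -/
theorem s15
    {p : ℕ} (hp : p.Prime) (hp' : p ∉ ({2, 3, 5, 7, 13} : Finset ℕ))
    (W : WeierstrassCurve ℤ) (hΔ : W.Δ ≠ 0)
    (Q : ((W.map (Int.castRingHom ℚ))⁄(AlgebraicClosure ℚ)).Point)
    (hQfix : ∀ σ : AlgebraicClosure ℚ ≃ₐ[ℚ] AlgebraicClosure ℚ, σ • Q = Q)
    (hQord : addOrderOf Q = p)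
    (h2Δ : (2 : ℤ) ∣ W.Δ) (h2c₄ : ¬ (2 : ℤ) ∣ W.c₄)
    (h2 : ∀ A : ValuationSubring (AlgebraicClosure ℚ), A.LiesOverPrime 2 → ¬ W.InZeroComponentAt A Q)
    (h3Δ : (3 : ℤ) ∣ W.Δ) (h3c₄ : ¬ (3 : ℤ) ∣ W.c₄)
    (h3 : ∀ A : ValuationSubring (AlgebraicClosure ℚ), A.LiesOverPrime 3 → ¬ W.InZeroComponentAt A Q)
    {ℓ : ℕ} (hℓ : ℓ.Prime) (hℓp : ℓ ≠ p) (hℓΔ : (ℓ : ℤ) ∣ W.Δ) (hℓc₄ : ¬ (ℓ : ℤ) ∣ W.c₄)
    (A : ValuationSubring (AlgebraicClosure ℚ)) (hA : A.LiesOverPrime ℓ) :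
    ¬ W.InZeroComponentAt A Q :=
  s15_of_inputs Fermat.Agent.MZ.MOD.BridgeFinal4.moduliBridge
    Fermat.Agent.MZ.TOP.S15Inputs9.redCommProp inertDivProp
    Fermat.Agent.MZ.TOP.S15InputsB9.selBoundProp
    hp hp' W hΔ Q hQfix hQord h2Δ h2c₄ h2 h3Δ h3c₄ h3 hℓ hℓp hℓΔ hℓc₄ A hA

end Fermat.Agent.MZ.TOP.S15Final9
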